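import Fermat.Agent.ExtVanish.InertiaLift
import Fermat.Prelude.Def_GaloisRep_Residual

/-!
# A finite-level homomorphism of `G_ℚ` which is unramified everywhere is trivial
-/

set_option autoImplicit false

open scoped Pointwise NumberField

namespace FermatAgent.LocalP

open FermatAgent.RT

noncomputable section

local notation "Qb" => AlgebraicClosure ℚ
local notation "GQ" => AlgebraicClosure ℚ ≃ₐ[ℚ] AlgebraicClosure ℚ

attribute [local instance] isGalois_algClosureRat

/-- A subgroup of `G_ℚ` containing all inertia groups and an open subgroup, and normal, is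
everything (Minkowski). -/
theorem eq_top_of_inertia_le (H : Subgroup GQ) [H.Normal]
    (L : IntermediateField ℚ Qb) [FiniteDimensional ℚ L] (hL : L.fixingSubgroup ≤ H)
    (hI : ∀ q : ℕ, q.Prime → ∀ A : ValuationSubring Qb, A.LiesOverPrime q →
      A.inertiaSubgroupIn ℚ ≤ H) : H = ⊤ := by
  have hopen : IsOpen (H : Set GQ) :=
    Subgroup.isOpen_mono hL (IntermediateField.fixingSubgroup_isOpen L)
  let Hc : ClosedSubgroup GQ := ⟨H, Subgroup.isClosed_of_isOpen H hopen⟩
  have hfix : (IntermediateField.fixedField H).fixingSubgroup = H :=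
    InfiniteGalois.fixingSubgroup_fixedField Hc
  set K := IntermediateField.fixedField H with hK
  have hKL : K ≤ L := by
    rw [← InfiniteGalois.fixedField_fixingSubgroup L, IntermediateField.le_iff_le, hfix]
    exact hL
  have : FiniteDimensional ℚ K :=
    FiniteDimensional.of_injective (IntermediateField.inclusion hKL).toLinearMap
      (IntermediateField.inclusion hKL).injective
  have hKgal : IsGalois ℚ K := (InfiniteGalois.normal_iff_isGalois K).mp (by rw [hfix]; infer_instance)
  have : NumberField K := ⟨⟩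
  suffices hbot : Module.finrank ℚ K = 1 by
    rw [IntermediateField.finrank_eq_one_iff] at hbot
    rw [← hfix, hbot, IntermediateField.fixingSubgroup_bot]
  by_contra hne
  have hpos : 1 < Module.finrank ℚ K := by
    have := Module.finrank_pos (R := ℚ) (M := K)
    omega
  obtain ⟨q, hq, hram⟩ := NumberField.exists_not_isUnramifiedAt_int_of_isGalois
    (K := K) (𝒪 := 𝓞 K) hpos
  have hqZ : Prime (q : ℤ) := Nat.prime_iff_prime_int.mp hq
  have hspan : (Ideal.span {(q : ℤ)}).IsMaximal :=
    PrincipalIdealRing.isMaximal_of_irreducible hqZ.irreducible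
  obtain ⟨Q, hQmax, hQlies⟩ := Ideal.exists_maximal_ideal_liesOver_of_isIntegral
    (S := 𝓞 K) (Ideal.span {(q : ℤ)})
  have hqQ : (q : 𝓞 K) ∈ Q := by
    have h1 : (q : ℤ) ∈ Q.under ℤ := by
      rw [← hQlies.over]; exact Ideal.mem_span_singleton_self _
    simpa using h1
  have hQ0 : Q ≠ ⊥ := fun h => by
    rw [h, Ideal.mem_bot] at hqQ
    exact hq.ne_zero (by exact_mod_cast hqQ)
  have hnu := hram Q hQmax.isPrime hqQ
  rw [← Ideal.ramificationIdx_eq_one_iff] at hnu
  apply hnu
  have : (Ideal.span {(q : ℤ)}).IsPrime := hspan.isPrime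
  have : Finite (ℤ ⧸ Ideal.span {(q : ℤ)}) :=
    have : NeZero q := ⟨hq.ne_zero⟩
    Finite.of_equiv _ (Int.quotientSpanNatEquivZMod q).symm.toEquiv
  have hFin : Finite ((Ideal.span {(q : ℤ)}).ResidueField) :=
    Finite.of_surjective _ (Ideal.bijective_algebraMap_quotient_residueField _).2
  have hcard := Ideal.card_inertia_eq_ramificationIdxIn (G := K ≃ₐ[ℚ] K)
    (Ideal.span {(q : ℤ)}) Q
  rw [Ideal.ramificationIdxIn_eq_ramificationIdx (Ideal.span {(q : ℤ)}) Q (K ≃ₐ[ℚ] K)] at hcard
  rw [← hcard, Nat.card_eq_one_iff_unique]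
  refine ⟨⟨fun σ τ => ?_⟩, ⟨1⟩⟩
  have key : ∀ σ : Q.inertia (K ≃ₐ[ℚ] K), (σ : K ≃ₐ[ℚ] K) = 1 := by
    intro σ
    obtain ⟨A, hA, t, ht, hti⟩ :=
      ExtVanish.exists_inertia_lift K.val Q hQ0 hq hqQ (σ : K ≃ₐ[ℚ] K) σ.2
    refine AlgEquiv.ext fun x => Subtype.ext ?_
    show K.val ((σ : K ≃ₐ[ℚ] K) x) = K.val x
    exact (hti x).symm.trans
      ((IntermediateField.mem_fixingSubgroup_iff K t).mp (hfix.symm ▸ hI q hq A hA ht) _ x.2)
  exact Subtype.ext ((key σ).trans (key τ).symm)

/-- A finite-level homomorphism trivial on every inertia group is trivial. -/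
theorem eq_one_of_unramified {M : Type} [Group M] (χ : GQ →* M)
    (hχ : GaloisFactorsThroughFiniteLevel χ)
    (hI : ∀ q : ℕ, q.Prime → ∀ A : ValuationSubring Qb, A.LiesOverPrime q →
      ∀ σ ∈ A.inertiaSubgroupIn ℚ, χ σ = 1) : χ = 1 := by
  obtain ⟨L, hfin, hL⟩ := hχ
  have := eq_top_of_inertia_le χ.ker L
    (fun σ hσ => hL σ ((IntermediateField.mem_fixingSubgroup_iff L σ).mp hσ))
    (fun q hq A hA σ hσ => hI q hq A hA σ hσ)
  exact MonoidHom.ext fun σ => (MonoidHom.mem_ker).mp (this ▸ Subgroup.mem_top σ)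

end

end FermatAgent.LocalP
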