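import Fermat.Agent.RT.Frobenius
import Mathlib.RingTheory.Invariant.Profinite

/-!
# Places of `ℚ̄` over a prime are conjugate, and so are their inertia groups
-/

set_option autoImplicit false

open scoped Pointwise

namespace FermatAgent.LocalP

open FermatAgent.RT

noncomputable section

local notation "Qb" => AlgebraicClosure ℚ
local notation "GQ" => AlgebraicClosure ℚ ≃ₐ[ℚ] AlgebraicClosure ℚ
local notation "ZB" => integralClosure ℤ (AlgebraicClosure ℚ)

attribute [local instance] isGalois_algClosureRat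

/-- Membership in inertia, elementwise. -/
theorem mem_inertia_iff_sub_mem {A : ValuationSubring Qb} {σ : GQ} :
    σ ∈ A.inertiaSubgroupIn ℚ ↔
      σ ∈ A.decompositionSubgroup ℚ ∧ ∀ x ∈ A, σ x - x ∈ A.nonunits := by
  constructor
  · rintro ⟨⟨σ', hσ'⟩, hker, rfl⟩
    refine ⟨hσ', fun x hx => ?_⟩
    have h := congrArg (fun f : RingAut (IsLocalRing.ResidueField A) =>
      f (IsLocalRing.residue A ⟨x, hx⟩)) (MonoidHom.mem_ker.mp hker)
    rw [← sub_eq_zero] at h
    have h2 : IsLocalRing.residue A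
        ((⟨σ', hσ'⟩ : A.decompositionSubgroup ℚ) • ⟨x, hx⟩ - ⟨x, hx⟩) = 0 := by
      rw [map_sub, IsLocalRing.ResidueField.residue_smul]
      exact h
    exact A.coe_mem_nonunits_iff.mpr ((IsLocalRing.residue_eq_zero_iff _).mp h2)
  · rintro ⟨hd, h⟩
    refine ⟨⟨σ, hd⟩, ?_, rfl⟩
    refine MonoidHom.mem_ker.mpr (RingEquiv.ext fun x => ?_)
    obtain ⟨⟨x, hx⟩, rfl⟩ := IsLocalRing.residue_surjective x
    show (⟨σ, hd⟩ : A.decompositionSubgroup ℚ) • IsLocalRing.residue A ⟨x, hx⟩ = _
    rw [← IsLocalRing.ResidueField.residue_smul, RingAut.one_apply, ← sub_eq_zero, ← map_sub,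
      IsLocalRing.residue_eq_zero_iff, ← A.coe_mem_nonunits_iff]
    exact h x hx

theorem mem_centre_or_inv_mem {A : ValuationSubring Qb} {s : ZB} (hs : s ∉ centre A) :
    (s : Qb)⁻¹ ∈ A := by
  rw [mem_centre_iff, ValuationSubring.mem_nonunits_iff_or] at hs
  push Not at hs
  exact hs.2

/-- An element carrying the centre of `A` to the centre of `B` carries `A` into `B`. -/
theorem apply_mem_of_smul_centre {A B : ValuationSubring Qb} {q : ℕ} (hq : q.Prime)
    (hA : A.LiesOverPrime q) {g : GQ} (hg : g • centre A = centre B) {x : Qb} (hx : x ∈ A) :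
    g x ∈ B := by
  obtain ⟨a, s, hs, hxs⟩ := exists_mul_eq_of_mem hq hA hx
  have hgs : g • s ∉ centre B := by
    rw [← hg, Ideal.smul_mem_pointwise_smul_iff]
    exact hs
  have hs0 : (g (s : Qb)) ≠ 0 := by
    intro h0
    exact hgs ((show g • s = 0 from Subtype.ext h0) ▸ (centre B).zero_mem)
  have : g x = g (a : Qb) * (g (s : Qb))⁻¹ := by
    rw [eq_mul_inv_iff_mul_eq₀ hs0, ← map_mul, hxs]
  rw [this]
  exact mul_mem (mem_of_isIntegral_int B (g • a).2) (mem_centre_or_inv_mem hgs)

/-- Two places over `q` are conjugate, and inertia groups correspond. -/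
theorem exists_conj_inertia {A B : ValuationSubring Qb} {q : ℕ} (hq : q.Prime)
    (hA : A.LiesOverPrime q) (hB : B.LiesOverPrime q) :
    ∃ g : GQ, ∀ σ ∈ B.inertiaSubgroupIn ℚ, g⁻¹ * σ * g ∈ A.inertiaSubgroupIn ℚ := by
  let : TopologicalSpace ZB := ⊥
  have : DiscreteTopology ZB := ⟨rfl⟩
  have : ContinuousSMul GQ ZB := by
    rw [continuousSMul_iff_stabilizer_isOpen]
    intro b
    have : FiniteDimensional ℚ (IntermediateField.adjoin ℚ {(b : Qb)}) :=
      IntermediateField.adjoin.finiteDimensional (isGalois_algClosureRat.to_normal.isIntegral _)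
    refine Subgroup.isOpen_mono ?_
      (IntermediateField.fixingSubgroup_isOpen (IntermediateField.adjoin ℚ {(b : Qb)}))
    intro g hg
    exact Subtype.ext (hg ⟨b, IntermediateField.mem_adjoin_simple_self ℚ (b : Qb)⟩)
  have hpA := centre_isPrime A
  have hpB := centre_isPrime B
  obtain ⟨g, hg⟩ := Algebra.IsInvariant.exists_smul_of_under_eq_of_profinite (A := ℤ) (G := GQ)
    (centre A) (centre B) (by
      ext n
      simp only [Ideal.under_def, Ideal.mem_comap, eq_intCast]
      rw [intCast_mem_centre_iff hq hA, intCast_mem_centre_iff hq hB])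
  have hg' : g • centre A = centre B := hg.symm
  have hginv : g⁻¹ • centre B = centre A := inv_smul_eq_iff.mpr hg
  refine ⟨g, fun σ hσ => ?_⟩
  obtain ⟨hd, hres⟩ := mem_inertia_iff_sub_mem.mp hσ
  have hmaps : ∀ τ : GQ, τ ∈ B.decompositionSubgroup ℚ → ∀ x ∈ A, g⁻¹ (τ (g x)) ∈ A := by
    intro τ hτ x hx
    refine apply_mem_of_smul_centre hq hB hginv ?_
    have h1 : τ • g x ∈ τ • B :=
      ValuationSubring.smul_mem_pointwise_smul τ _ B (apply_mem_of_smul_centre hq hA hg' hx)
    rwa [MulAction.mem_stabilizer_iff.mp hτ] at h1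
  refine mem_inertia_iff_sub_mem.mpr ⟨?_, fun x hx => ?_⟩
  · rw [ValuationSubring.decompositionSubgroup, MulAction.mem_stabilizer_iff]
    ext x
    rw [ValuationSubring.mem_pointwise_smul_iff_inv_smul_mem]
    constructor
    · intro h
      have := hmaps σ hd _ h
      simpa [AlgEquiv.smul_def, mul_inv_rev, AlgEquiv.mul_apply] using this
    · intro h
      have := hmaps σ⁻¹ (inv_mem hd) x h
      simpa [AlgEquiv.smul_def, mul_inv_rev, AlgEquiv.mul_apply] using this
  · show g⁻¹ (σ (g x)) - x ∈ A.nonunits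
    have h1 : σ (g x) - g x ∈ B.nonunits := hres _ (apply_mem_of_smul_centre hq hA hg' hx)
    have h2 : g⁻¹ (σ (g x) - g x) ∈ A.nonunits := by
      rw [ValuationSubring.mem_nonunits_iff_or] at h1 ⊢
      rcases h1 with h1 | h1
      · exact Or.inl (by rw [h1, map_zero])
      · refine Or.inr fun hc => h1 ?_
        have := apply_mem_of_smul_centre hq hA hg' hc
        rwa [← map_inv₀, ← AlgEquiv.mul_apply, mul_inv_cancel, AlgEquiv.one_apply] at this
    rwa [map_sub, ← AlgEquiv.mul_apply g⁻¹ g, inv_mul_cancel, AlgEquiv.one_apply] at h2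

end

end FermatAgent.LocalP
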