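import Mathlib.AlgebraicGeometry.EllipticCurve.Affine.Point
import Mathlib.Tactic.FieldSimp
import Mathlib.Tactic.LinearCombination

/-!
# Symmetric formulas for the `x`-coordinates of `P + Q` and `P - Q`
-/

set_option autoImplicit false

namespace FermatAgent.LocalP

open WeierstrassCurve WeierstrassCurve.Affine

variable {F : Type*} [Field F] [DecidableEq F] {W : WeierstrassCurve.Affine F}

/-- The `x`-coordinate of a point, junk value `0` at infinity. -/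
def xCoord : W.Point → F
  | .zero => 0
  | .some x _ _ => x

omit [DecidableEq F] in
@[simp] lemma xCoord_some {x y : F} (h : W.Nonsingular x y) :
    xCoord (Point.some x y h) = x := rfl

omit [DecidableEq F] in
@[simp] lemma xCoord_neg (P : W.Point) : xCoord (-P) = xCoord P := by
  cases P <;> rfl

omit [DecidableEq F] in
lemma exists_eq_some {P : W.Point} (hP : P ≠ 0) :
    ∃ (y : F) (h : W.Nonsingular (xCoord P) y), P = Point.some (xCoord P) y h := by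
  cases P with
  | zero => exact absurd rfl hP
  | some x y h => exact ⟨y, h, rfl⟩

lemma addX_add_addX_neg {x₁ x₂ y₁ y₂ : F} (h₁ : W.Equation x₁ y₁) (h₂ : W.Equation x₂ y₂)
    (hx : x₁ ≠ x₂) :
    (W.addX x₁ x₂ (W.slope x₁ x₂ y₁ y₂) + W.addX x₁ x₂ (W.slope x₁ x₂ y₁ (W.negY x₂ y₂))) *
        (x₁ - x₂) ^ 2 =
      2 * x₁ * x₂ * (x₁ + x₂) + W.b₂ * (x₁ * x₂) + W.b₄ * (x₁ + x₂) + W.b₆ := by
  rw [equation_iff] at h₁ h₂
  have hd : x₁ - x₂ ≠ 0 := sub_ne_zero.mpr hx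
  simp only [slope_of_X_ne hx, addX, negY, WeierstrassCurve.b₂, WeierstrassCurve.b₄,
    WeierstrassCurve.b₆]
  field_simp
  linear_combination (2 : F) * h₁ + (2 : F) * h₂

lemma addX_mul_addX_neg {x₁ x₂ y₁ y₂ : F} (h₁ : W.Equation x₁ y₁) (h₂ : W.Equation x₂ y₂)
    (hx : x₁ ≠ x₂) :
    (W.addX x₁ x₂ (W.slope x₁ x₂ y₁ y₂) * W.addX x₁ x₂ (W.slope x₁ x₂ y₁ (W.negY x₂ y₂))) *
        (x₁ - x₂) ^ 2 =
      x₁ ^ 2 * x₂ ^ 2 - W.b₄ * (x₁ * x₂) - W.b₆ * (x₁ + x₂) - W.b₈ := by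
  rw [equation_iff] at h₁ h₂
  have hd : x₁ - x₂ ≠ 0 := sub_ne_zero.mpr hx
  simp only [slope_of_X_ne hx, addX, negY, WeierstrassCurve.b₄,
    WeierstrassCurve.b₆, WeierstrassCurve.b₈]
  field_simp
  grind

omit [DecidableEq F] in
lemma Ψ₂Sq_eval_eq {x y : F} (h : W.Equation x y) :
    4 * x ^ 3 + W.b₂ * x ^ 2 + 2 * W.b₄ * x + W.b₆ = (y - W.negY x y) ^ 2 := by
  rw [equation_iff] at h
  simp only [negY, WeierstrassCurve.b₂, WeierstrassCurve.b₄, WeierstrassCurve.b₆]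
  linear_combination (-4 : F) * h

lemma addX_self {x y : F} (h : W.Equation x y) (hy : y ≠ W.negY x y) :
    W.addX x x (W.slope x x y y) * (4 * x ^ 3 + W.b₂ * x ^ 2 + 2 * W.b₄ * x + W.b₆) =
      x ^ 4 - W.b₄ * x ^ 2 - 2 * W.b₆ * x - W.b₈ := by
  have hd : y - W.negY x y ≠ 0 := sub_ne_zero.mpr hy
  have key : ∀ L d : F, d ≠ 0 → ((L / d) ^ 2 + W.a₁ * (L / d) - W.a₂ - x - x) * d ^ 2 =
      L ^ 2 + W.a₁ * L * d - (W.a₂ + 2 * x) * d ^ 2 := fun L d hd => by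
    field_simp
    ring
  rw [Ψ₂Sq_eval_eq h, slope_of_Y_ne rfl hy, addX, key _ _ hd]
  rw [equation_iff] at h
  simp only [negY, WeierstrassCurve.b₄, WeierstrassCurve.b₆, WeierstrassCurve.b₈]
  linear_combination (-(W.a₁ ^ 2 + 4 * W.a₂ + 8 * x)) * h

omit [DecidableEq F] in
lemma xCoord_ne_of_ne_neg {P Q : W.Point} (hP : P ≠ 0) (hQ : Q ≠ 0) (h : P ≠ Q) (h' : P ≠ -Q) :
    xCoord P ≠ xCoord Q := by
  obtain ⟨y₁, n₁, hP'⟩ := exists_eq_some hP
  obtain ⟨y₂, n₂, hQ'⟩ := exists_eq_some hQ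
  intro hx
  rcases Y_eq_of_X_eq n₁.left n₂.left hx with hy | hy
  · exact h (by rw [hP', hQ']; simp only [Point.some.injEq]; exact ⟨hx, hy⟩)
  · refine h' ?_
    rw [hP', hQ', Point.neg_some]
    simp only [Point.some.injEq]
    exact ⟨hx, hy⟩

/-- `x(P+Q) + x(P-Q)`. -/
lemma xCoord_add_add_xCoord_sub {P Q : W.Point} (hP : P ≠ 0) (hQ : Q ≠ 0)
    (hx : xCoord P ≠ xCoord Q) :
    (xCoord (P + Q) + xCoord (P - Q)) * (xCoord P - xCoord Q) ^ 2 =
      2 * xCoord P * xCoord Q * (xCoord P + xCoord Q) + W.b₂ * (xCoord P * xCoord Q)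
        + W.b₄ * (xCoord P + xCoord Q) + W.b₆ := by
  cases P with
  | zero => exact absurd rfl hP
  | some x₁ y₁ n₁ =>
    cases Q with
    | zero => exact absurd rfl hQ
    | some x₂ y₂ n₂ =>
      simp only [xCoord_some] at hx ⊢
      rw [sub_eq_add_neg, Point.neg_some, Point.add_of_X_ne hx, Point.add_of_X_ne hx]
      exact addX_add_addX_neg n₁.left n₂.left hx

/-- `x(P+Q) x(P-Q)`. -/
lemma xCoord_add_mul_xCoord_sub {P Q : W.Point} (hP : P ≠ 0) (hQ : Q ≠ 0)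
    (hx : xCoord P ≠ xCoord Q) :
    (xCoord (P + Q) * xCoord (P - Q)) * (xCoord P - xCoord Q) ^ 2 =
      xCoord P ^ 2 * xCoord Q ^ 2 - W.b₄ * (xCoord P * xCoord Q)
        - W.b₆ * (xCoord P + xCoord Q) - W.b₈ := by
  cases P with
  | zero => exact absurd rfl hP
  | some x₁ y₁ n₁ =>
    cases Q with
    | zero => exact absurd rfl hQ
    | some x₂ y₂ n₂ =>
      simp only [xCoord_some] at hx ⊢
      rw [sub_eq_add_neg, Point.neg_some, Point.add_of_X_ne hx, Point.add_of_X_ne hx]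
      exact addX_mul_addX_neg n₁.left n₂.left hx

/-- The duplication formula. -/
lemma xCoord_two_nsmul {P : W.Point} (h2 : (2 : ℕ) • P ≠ 0) :
    xCoord ((2 : ℕ) • P) *
        (4 * xCoord P ^ 3 + W.b₂ * xCoord P ^ 2 + 2 * W.b₄ * xCoord P + W.b₆) =
      xCoord P ^ 4 - W.b₄ * xCoord P ^ 2 - 2 * W.b₆ * xCoord P - W.b₈ := by
  cases P with
  | zero => exact absurd (nsmul_zero 2) h2
  | some x y n =>
    have hy : y ≠ W.negY x y := fun hy => h2 (by rw [two_nsmul, Point.add_self_of_Y_eq hy])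
    rw [two_nsmul, Point.add_self_of_Y_ne hy]
    exact addX_self n.left hy

lemma Ψ₂Sq_xCoord_ne_zero {P : W.Point} (h2 : (2 : ℕ) • P ≠ 0) :
    4 * xCoord P ^ 3 + W.b₂ * xCoord P ^ 2 + 2 * W.b₄ * xCoord P + W.b₆ ≠ 0 := by
  cases P with
  | zero => exact absurd (nsmul_zero 2) h2
  | some x y n =>
    have hy : y ≠ W.negY x y := fun hy => h2 (by rw [two_nsmul, Point.add_self_of_Y_eq hy])
    rw [xCoord_some, Ψ₂Sq_eval_eq n.left]
    exact pow_ne_zero 2 (sub_ne_zero.mpr hy)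

end FermatAgent.LocalP
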