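import Fermat.Agent.Local.Tate
import Fermat.Agent.LocalP.XFormulas
import Mathlib.FieldTheory.IsAlgClosed.Basic
import Mathlib.Algebra.CharP.Lemmas
import Mathlib.Algebra.Field.ZMod
import Mathlib.RingTheory.Valuation.ValuationSubring

/-!
# The smooth part of a nodal reduction has no `p`-torsion in residue characteristic `p`

For a smooth point of `y² + xy = x³ + c` (`v c < 1`) killed by `p`, the residues `w_k` of `1/x(k P)`
satisfy `L_(k+1) + L_(k-1) = L_1 L_k` for `L_k = w_k + 2`, so `L_k = t^k + t^-k` and `t^p = 1`.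
-/

set_option autoImplicit false

namespace FermatAgent.LocalP

open WeierstrassCurve WeierstrassCurve.Affine
open FermatAgent.Local

/-- The algebra behind the nodal torsion: a sequence `L` with the linear recursion closing up with
period `p` has `L 1 = 2` in characteristic `p`. -/
lemma eq_two_of_recursion {k : Type*} [Field k] [IsAlgClosed k] (p : ℕ) [Fact p.Prime] [CharP k p]
    (hp : 3 ≤ p) (L : ℕ → k) (h2 : L 2 = L 1 ^ 2 - 2)
    (hrec : ∀ j, 2 ≤ j → j + 1 < p → L (j + 1) + L (j - 1) = L 1 * L j)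
    (e1 : L (p - 1) = L 1) (e2 : L (p - 2) = L 2 ∨ p = 3) : L 1 = 2 := by
  obtain ⟨t, ht⟩ := IsAlgClosed.exists_eq_mul_self (L 1 ^ 2 - 4)
  by_cases hk2 : (2 : k) = 0
  · exfalso
    have h := (CharP.cast_eq_zero_iff k p 2).mp (by exact_mod_cast hk2)
    have := Nat.le_of_dvd two_pos h
    omega
  set u : k := (L 1 + t) / 2 with hu
  set u' : k := (L 1 - t) / 2 with hu'
  have hsum : u + u' = L 1 := by rw [hu, hu']; field_simp; ring
  have hmul : u * u' = 1 := by rw [hu, hu']; field_simp; linear_combination ht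
  have main : ∀ j, 1 ≤ j → j + 1 < p → L j = u ^ j + u' ^ j ∧ L (j + 1) = u ^ (j + 1) + u' ^ (j + 1) := by
    intro j hj
    induction j, hj using Nat.le_induction with
    | base =>
      intro _
      refine ⟨by rw [pow_one, pow_one, hsum], ?_⟩
      rw [h2, ← hsum]; linear_combination 2 * hmul
    | succ j hj ih =>
      intro hjp
      obtain ⟨i1, i2⟩ := ih (by omega)
      refine ⟨i2, ?_⟩
      have := hrec (j + 1) (by omega) hjp
      rw [show j + 1 - 1 = j by omega, i1, i2, ← hsum] at this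
      linear_combination this + (u ^ j + u' ^ j) * hmul
  have hp2 : u ^ (p - 1) + u' ^ (p - 1) = L 1 := by
    have := (main (p - 2) (by omega) (by omega)).2
    rw [show p - 2 + 1 = p - 1 by omega] at this
    rw [← this, e1]
  have hp3 : u ^ (p - 2) + u' ^ (p - 2) = L 1 ^ 2 - 2 := by
    rcases e2 with e2 | rfl
    · rw [← (main (p - 2) (by omega) (by omega)).1, e2, h2]
    · rw [show 3 - 2 = 1 from rfl, pow_one, pow_one, hsum, ← h2]
      exact e1.symm
  have hp' : (u + u' - 2) ^ p = 0 := by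
    obtain ⟨q, rfl⟩ : ∃ q, p = q + 2 := ⟨p - 2, by omega⟩
    simp only [show q + 2 - 1 = q + 1 by omega, add_tsub_cancel_right] at hp2 hp3
    rw [sub_pow_char, add_pow_char]
    rw [show (2 : k) ^ (q + 2) = 2 by
      have := frobenius_def (R := k) (q + 2) 2
      rw [map_ofNat] at this
      exact this.symm]
    linear_combination (L 1) * hp2 - hp3 + (u ^ (q + 1) + u' ^ (q + 1)) * hsum
      - (u ^ q + u' ^ q) * hmul
  have := pow_eq_zero_iff (by omega) |>.mp hp'
  linear_combination this - hsum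

variable {K : Type*} [Field K] [DecidableEq K] [IsAlgClosed K] {A : ValuationSubring K}
  {W : WeierstrassCurve.Affine K}

omit [IsAlgClosed K] in
/-- In residue characteristic `p`, a point of `E₀` killed by `p` lies in `E₁`. -/
theorem inE1_of_nsmul_eq_zero_tate (hT : IsTate A W) {p : ℕ} (hp : p.Prime) (hp3 : 3 ≤ p)
    (hpA : A.valuation (p : K) < 1) {P : W.Point} (hP : p • P = 0) (hE : InE0 A W P) :
    InE1 A W P := by
  classical
  have : Fact p.Prime := ⟨hp⟩
  by_contra hne
  have hP0 : P ≠ 0 := fun h => hne (by rw [h]; trivial)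
  have hord : addOrderOf P = p := addOrderOf_eq_prime hP hP0
  have hW := hT.intCoeffs
  have hnz : ∀ j : ℕ, 0 < j → j < p → j • P ≠ 0 := fun j h0 hj e => by
    rw [← addOrderOf_dvd_iff_nsmul_eq_zero, hord] at e
    exact absurd (Nat.le_of_dvd h0 e) (by omega)
  have hout : ∀ j : ℕ, 0 < j → j < p → ¬ InE1 A W (j • P) := by
    intro j h0 hj he
    obtain ⟨i, hi⟩ : ∃ i : ℕ, i * j ≡ 1 [MOD p] := by
      refine ⟨((j : ZMod p)⁻¹).val, (ZMod.natCast_eq_natCast_iff _ _ _).mp ?_⟩
      have hj0 : (j : ZMod p) ≠ 0 := by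
        rw [Ne, ZMod.natCast_eq_zero_iff]
        exact fun hd => absurd (Nat.le_of_dvd h0 hd) (by omega)
      rw [Nat.cast_mul, ZMod.natCast_zmod_val, inv_mul_cancel₀ hj0, Nat.cast_one]
    refine hne ?_
    have h1 : (i * j) • P = P := by
      conv_rhs => rw [← one_nsmul P]
      rw [nsmul_eq_nsmul_iff_modEq, hord]
      exact hi
    rw [← h1, mul_nsmul']
    exact (e1Subgroup A W hW).nsmul_mem he i
  -- all multiples have unit `x`
  have hx : ∀ j : ℕ, 0 < j → j < p → A.valuation (xCoord (j • P)) = 1 := by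
    intro j h0 hj
    obtain ⟨y, h, e⟩ := exists_eq_some (hnz j h0 hj)
    have hmem : InE0 A W (j • P) := (e0Subgroup A W hW).nsmul_mem hE j
    have hnot := hout j h0 hj
    rw [e] at hmem hnot
    have hxA : xCoord (j • P) ∈ A := not_not.mp hnot
    refine le_antisymm (val_le_one_of_mem hxA) (not_lt.mp fun hlt => ?_)
    exact (hT.not_inE0_iff h).mpr hlt hmem
  let xA : ℕ → A := fun j => if h : xCoord (j • P) ∈ A then ⟨_, h⟩ else 0
  let ξ : ℕ → IsLocalRing.ResidueField A := fun j => IsLocalRing.residue A (xA j)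
  have hxA : ∀ j : ℕ, 0 < j → j < p → (xA j : K) = xCoord (j • P) := fun j h0 hj => by
    have := mem_of_val_le_one (hx j h0 hj).le
    simp [xA, this]
  have hξ : ∀ j : ℕ, 0 < j → j < p → ξ j ≠ 0 := by
    intro j h0 hj e
    have h1 := hx j h0 hj
    rw [IsLocalRing.residue_eq_zero_iff, ValuationSubring.valuation_lt_one_iff, hxA j h0 hj, h1]
      at e
    exact lt_irrefl _ e
  have hres : ∀ z : A, A.valuation (z : K) < 1 → IsLocalRing.residue A z = 0 := fun z hz => by
    rw [IsLocalRing.residue_eq_zero_iff, ValuationSubring.valuation_lt_one_iff]; exact hz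
  have hc : IsLocalRing.residue A ⟨W.a₆, hW.a₆⟩ = 0 := hres _ hT.c_lt
  have b2 : W.b₂ = 1 := by simp [WeierstrassCurve.b₂, hT.a₁, hT.a₂]
  have b4 : W.b₄ = 0 := by simp [WeierstrassCurve.b₄, hT.a₃, hT.a₄]
  have b6 : W.b₆ = 4 * W.a₆ := by simp [WeierstrassCurve.b₆, hT.a₃]
  have b8 : W.b₈ = W.a₆ := by
    simp [WeierstrassCurve.b₈, hT.a₁, hT.a₂, hT.a₃, hT.a₄]
  -- duplication
  have hdup : ξ 2 * (ξ 1 ^ 2 * (4 * ξ 1 + 1)) = ξ 1 ^ 4 := by
    have e := xCoord_two_nsmul (W := W) (hnz 2 two_pos (by omega))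
    rw [b2, b4, b6, b8] at e
    have e' : xA 2 * (4 * xA 1 ^ 3 + 1 * xA 1 ^ 2 + 2 * 0 * xA 1 + 4 * ⟨W.a₆, hW.a₆⟩) =
        xA 1 ^ 4 - 0 * xA 1 ^ 2 - 2 * (4 * ⟨W.a₆, hW.a₆⟩) * xA 1 - ⟨W.a₆, hW.a₆⟩ := by
      apply Subtype.ext
      push_cast
      rw [hxA 1 one_pos (by omega), hxA 2 two_pos (by omega), one_nsmul]
      exact e
    have := congrArg (IsLocalRing.residue A) e'
    simp only [map_add, map_sub, map_mul, map_pow, map_ofNat, map_one, map_zero, hc] at this
    linear_combination this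
  -- the relations for `j P ± P`
  have hrel : ∀ j, 2 ≤ j → j + 1 < p →
      (ξ (j + 1) + ξ (j - 1)) * (ξ j - ξ 1) ^ 2 = 2 * ξ j * ξ 1 * (ξ j + ξ 1) + ξ j * ξ 1 ∧
        ξ (j + 1) * ξ (j - 1) * (ξ j - ξ 1) ^ 2 = ξ j ^ 2 * ξ 1 ^ 2 := by
    intro j h2 hj
    have hne' : xCoord (j • P) ≠ xCoord P := by
      have hsplit : j • P = (j - 1) • P + P := by
        rw [← succ_nsmul, Nat.sub_add_cancel (by omega)]
      refine xCoord_ne_of_ne_neg (hnz j (by omega) (by omega)) hP0 (fun e => ?_) (fun e => ?_)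
      · rw [hsplit, add_eq_right] at e
        exact hnz (j - 1) (by omega) (by omega) e
      · exact hnz (j + 1) (by omega) hj (by rw [succ_nsmul, e, neg_add_cancel])
    have hsub : j • P - P = (j - 1) • P := by
      rw [show j • P = (j - 1) • P + P by rw [← succ_nsmul, Nat.sub_add_cancel (by omega)],
        add_sub_cancel_right]
    have es := xCoord_add_add_xCoord_sub (hnz j (by omega) (by omega)) hP0 hne'
    have ep := xCoord_add_mul_xCoord_sub (hnz j (by omega) (by omega)) hP0 hne'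
    rw [← succ_nsmul, hsub, b2, b4, b6] at es
    rw [← succ_nsmul, hsub, b4, b6, b8] at ep
    constructor
    · have e' : (xA (j + 1) + xA (j - 1)) * (xA j - xA 1) ^ 2 = 2 * xA j * xA 1 * (xA j + xA 1) +
          1 * (xA j * xA 1) + 0 * (xA j + xA 1) + 4 * ⟨W.a₆, hW.a₆⟩ := by
        apply Subtype.ext
        push_cast
        rw [hxA 1 one_pos (by omega), hxA j (by omega) (by omega), hxA (j + 1) (by omega) hj,
          hxA (j - 1) (by omega) (by omega), one_nsmul]
        exact es
      have := congrArg (IsLocalRing.residue A) e'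
      simp only [map_add, map_sub, map_mul, map_pow, map_ofNat, map_one, map_zero, hc] at this
      linear_combination this
    · have e' : xA (j + 1) * xA (j - 1) * (xA j - xA 1) ^ 2 = xA j ^ 2 * xA 1 ^ 2 -
          0 * (xA j * xA 1) - 4 * ⟨W.a₆, hW.a₆⟩ * (xA j + xA 1) - ⟨W.a₆, hW.a₆⟩ := by
        apply Subtype.ext
        push_cast
        rw [hxA 1 one_pos (by omega), hxA j (by omega) (by omega), hxA (j + 1) (by omega) hj,
          hxA (j - 1) (by omega) (by omega), one_nsmul]
        exact ep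
      have := congrArg (IsLocalRing.residue A) e'
      simp only [map_add, map_sub, map_mul, map_pow, map_ofNat, map_zero, hc] at this
      linear_combination this
  have : CharP (IsLocalRing.ResidueField A) p := by
    refine (CharP.charP_iff_prime_eq_zero hp).mpr ?_
    rw [← map_natCast (IsLocalRing.residue A)]
    exact hres _ (by simpa using hpA)
  have hξ1 := hξ 1 one_pos (by omega)
  have hsymm : ∀ a b : ℕ, a + b = p → ξ a = ξ b := fun a b hab => by
    have e : xCoord (a • P) = xCoord (b • P) := by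
      rw [← xCoord_neg (b • P), eq_neg_of_add_eq_zero_left (a := a • P) (b := b • P)
        (by rw [← add_nsmul, hab, hP])]
    simp only [ξ, xA]
    congr 1
    simp only [e]
  have h41 : 4 * ξ 1 + 1 ≠ 0 := fun h0 => by
    rw [h0, mul_zero, mul_zero] at hdup
    exact pow_ne_zero 4 hξ1 hdup.symm
  -- pass to `L j = 1/ξ j + 2`
  obtain ⟨k', _, ψ, hψ⟩ : ∃ (k' : Type _) (_ : Field k') (ψ : IsLocalRing.ResidueField A →+* k'),
      IsAlgClosed k' :=
    ⟨AlgebraicClosure (IsLocalRing.ResidueField A), inferInstance, algebraMap _ _, inferInstance⟩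
  have : CharP k' p := (ψ.charP_iff ψ.injective p).mp this
  have key := eq_two_of_recursion (k := k') p hp3 (fun j => ψ ((ξ j)⁻¹ + 2)) ?_ ?_ ?_ ?_
  · rw [map_add, map_ofNat, add_eq_right, map_eq_zero, inv_eq_zero] at key
    exact hξ1 key
  · show ψ ((ξ 2)⁻¹ + 2) = ψ ((ξ 1)⁻¹ + 2) ^ 2 - 2
    rw [show (2 : k') = ψ 2 from (map_ofNat ψ 2).symm, ← map_pow, ← map_sub]
    congr 1
    have := hξ 2 two_pos (by omega)
    field_simp
    refine mul_left_cancel₀ (pow_ne_zero 2 hξ1) ?_
    linear_combination -hdup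
  · intro j h2 hj
    show ψ _ + ψ _ = ψ _ * ψ _
    rw [← map_add, ← map_mul]
    congr 1
    obtain ⟨es, ep⟩ := hrel j h2 hj
    have hj' := hξ j (by omega) (by omega)
    have hjp := hξ (j + 1) (by omega) hj
    have hjm := hξ (j - 1) (by omega) (by omega)
    have hd : ξ j - ξ 1 ≠ 0 := by
      intro h0
      rw [h0] at ep
      have := mul_ne_zero (pow_ne_zero 2 hj') (pow_ne_zero 2 hξ1)
      exact this (by simpa using ep.symm)
    field_simp
    refine mul_left_cancel₀ (pow_ne_zero 2 hd) ?_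
    linear_combination (ξ j * ξ 1) * es - (1 + 2 * (ξ j + ξ 1)) * ep
  · show ψ _ = ψ _
    rw [hsymm (p - 1) 1 (by omega)]
  · left
    show ψ _ = ψ _
    rw [hsymm (p - 2) 2 (by omega)]

end FermatAgent.LocalP
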