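import Fermat.Agent.LocalP.Dichotomy
import Fermat.Agent.LocalP.NodalTorsion
import Fermat.Agent.Local.Multiplicative

/-!
# Inertia at `p` on `E[p]` for semistable reduction: `(σ - 1) E[p] ⊆ E₁`
-/

set_option autoImplicit false

open scoped WeierstrassCurve.Affine

namespace FermatAgent.LocalP

open WeierstrassCurve WeierstrassCurve.Affine
open FermatAgent.Local

noncomputable section

local notation "Qb" => AlgebraicClosure ℚ

variable {A : ValuationSubring Qb} {W : WeierstrassCurve.Affine Qb}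

lemma inE1_vcHom_iff {C : VariableChange Qb} (hu : A.valuation (C.u : Qb) = 1) (hr : C.r ∈ A)
    (Q : (C • W).toAffine.Point) : InE1 A W (vcHom W C Q) ↔ InE1 A (C • W).toAffine Q := by
  rcases Q with _ | ⟨x, y, h⟩
  · exact Iff.rfl
  · exact not_congr (vcX_mem_iff hu hr x)

/-- Multiplicative reduction, residue characteristic `p`: `E₀[p] ⊆ E₁`. -/
theorem inE1_of_inE0_of_nsmul_eq_zero (hW : IntCoeffs A W) (hΔ : A.valuation W.Δ < 1)
    (hΔ0 : W.Δ ≠ 0) (hc₄ : A.valuation W.c₄ = 1) {p : ℕ} (hp : p.Prime) (hp3 : 3 ≤ p)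
    (hpA : A.valuation (p : Qb) < 1) {P : W.Point} (hP : p • P = 0) (hE : InE0 A W P) :
    InE1 A W P := by
  obtain ⟨C, hT, -, hu, hr, hs, ht, -⟩ := exists_tate_form hW hΔ hΔ0 hc₄
  obtain ⟨Q, rfl⟩ := (vcHom_bijective W C).2 P
  rw [inE0_vcHom_iff hW hT.intCoeffs hu hr hs ht] at hE
  refine (inE1_vcHom_iff hu hr Q).mpr (inE1_of_nsmul_eq_zero_tate hT hp hp3 hpA ?_ hE)
  apply (vcHom_bijective W C).1
  rw [map_nsmul, hP, map_zero]

/-- Semistable at `p`: inertia moves `p`-torsion inside `E₁`. -/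
theorem movesInE1_of_semistable (E : WeierstrassCurve ℤ) (hΔ0 : E.Δ ≠ 0) {p : ℕ} (hp : p.Prime)
    (hp3 : 3 ≤ p) (hss : (p : ℤ) ∣ E.Δ → ¬ (p : ℤ) ∣ E.c₄) : MovesInE1 E p := by
  intro A hA σ hσ x
  obtain ⟨P, hP⟩ := x
  rw [Submodule.mem_torsionBy_iff, natCast_zsmul] at hP
  show InE1 A (qbarCurve E) (σ • P - P)
  have hW := qbarCurve_intCoeffs E A
  rw [galois_smul_eq_conjPoint]
  by_cases hbad : (p : ℤ) ∣ E.Δ
  · have hv : A.valuation (qbarCurve E).Δ < 1 := by
      rw [qbarCurve_Δ]; exact (val_intCast_lt_one_iff hp hA _).2 hbad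
    have hv0 : (qbarCurve E).Δ ≠ 0 := by rw [qbarCurve_Δ]; exact_mod_cast hΔ0
    have hc : A.valuation (qbarCurve E).c₄ = 1 := by
      rw [qbarCurve_c₄]; exact val_intCast_eq_one hp hA (hss hbad)
    exact inE1_of_inE0_of_nsmul_eq_zero hW hv hv0 hc hp hp3 hA
      (by rw [nsmul_sub, ← map_nsmul, hP, map_zero, sub_zero])
      (mult_conj_sub_inE0 hW hv hv0 hc hσ (qbarCurve_conj E _) P)
  · refine IsTate.conj_sub_inE1 (qbarCurve_conj E _) hW hσ ?_
    rcases P with _ | ⟨a, b, h⟩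
    · trivial
    · refine (em (a ∈ A)).symm.imp id fun ha => ?_
      exact smoothRed_of_goodReduction hW
        (by rw [qbarCurve_Δ]; exact val_intCast_eq_one hp hA hbad) h.1 ha

/-- Semistable away from `p`: inertia acts unipotently on `E[p]`. -/
theorem unipotentAway_of_semistable (E : WeierstrassCurve ℤ) (hΔ0 : E.Δ ≠ 0) {p : ℕ} (hp : p.Prime)
    (hss : E.IsSemistableModel) : UnipotentAway E p := by
  intro q hq hqp A hA σ hσ x
  obtain ⟨P, hP⟩ := x
  rw [Submodule.mem_torsionBy_iff, natCast_zsmul] at hP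
  exact Subtype.ext (galois_sub_sub_of_semistable E hq hΔ0 (hss q hq)
    (fun hd => hqp ((Nat.prime_dvd_prime_iff_eq hq hp).1 hd)) hA hσ hP)

/-- For a semistable integral model and an odd prime `p`, a Galois-stable line of `E[p]` is pointwise
fixed or has trivial quotient action. -/
theorem semistable_fixed_or_cofixed (E : WeierstrassCurve ℤ) (hΔ0 : E.Δ ≠ 0)
    (hss : E.IsSemistableModel) {p : ℕ} (hp : p.Prime) (hp2 : p ≠ 2)
    {N : Submodule (ZMod p) (Tors E p)}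
    (hst : WeierstrassCurve.Affine.Point.IsGaloisStable (S := ℚ) N) (hbot : N ≠ ⊥) (htop : N ≠ ⊤) :
    (∀ σ : Qb ≃ₐ[ℚ] Qb, ∀ x ∈ N, σ • x = x) ∨
      (∀ σ : Qb ≃ₐ[ℚ] Qb, ∀ x : Tors E p, σ • x - x ∈ N) := by
  have : Fact p.Prime := ⟨hp⟩
  exact fixed_or_cofixed hΔ0 hp2 (unipotentAway_of_semistable E hΔ0 hp hss)
    (movesInE1_of_semistable E hΔ0 hp (by have := hp.two_le; omega) (hss p hp)) hst hbot htop

end

end FermatAgent.LocalP
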