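import Mathlib.Algebra.Order.Group.Int
import Mathlib.RingTheory.Int.Basic
import Mathlib.Tactic.Linarith
import Mathlib.Tactic.Ring

/-!
# The tent function: distance to the nearest multiple of `2 * m`
-/

set_option autoImplicit false

namespace FermatAgent.LocalP

/-- Distance of `z` to the nearest multiple of `2 * m`. -/
def tent (m z : ℤ) : ℤ := min (z % (2 * m)) (2 * m - z % (2 * m))

variable {m : ℤ}

lemma tent_sign (m z : ℤ) : ∃ e : ℤ, (e = 1 ∨ e = -1) ∧ 2 * m ∣ tent m z - e * z := by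
  unfold tent
  rcases min_choice (z % (2 * m)) (2 * m - z % (2 * m)) with h | h <;> rw [h]
  · refine ⟨1, Or.inl rfl, ⟨-(z / (2 * m)), ?_⟩⟩
    linarith [Int.emod_add_mul_ediv z (2 * m)]
  · refine ⟨-1, Or.inr rfl, ⟨1 + z / (2 * m), ?_⟩⟩
    linarith [Int.emod_add_mul_ediv z (2 * m)]

lemma tent_congr {z w : ℤ} (h : 2 * m ∣ z - w) : tent m z = tent m w := by
  have e : z % (2 * m) = w % (2 * m) := Int.emod_eq_emod_iff_emod_sub_eq_zero.mpr
    (Int.emod_eq_zero_of_dvd h)
  unfold tent; rw [e]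

lemma tent_of_le {z : ℤ} (h0 : 0 ≤ z) (hz : z ≤ m) : tent m z = z := by
  rcases eq_or_lt_of_le (h0.trans hz) with hm | hm
  · obtain rfl : z = 0 := by omega
    simp [tent, ← hm]
  · unfold tent
    rw [Int.emod_eq_of_lt h0 (by omega)]
    exact min_eq_left (by omega)

lemma tent_neg (hm : 0 < m) (z : ℤ) : tent m (-z) = tent m z := by
  have h0 := Int.emod_nonneg z (show 2 * m ≠ 0 by omega)
  have h1 := Int.emod_lt_of_pos z (show 0 < 2 * m by omega)
  rcases eq_or_lt_of_le h0 with h | h
  · have hd : 2 * m ∣ z := Int.dvd_of_emod_eq_zero h.symm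
    rw [tent_congr (w := 0) (z := -z) (by simpa using hd),
      tent_congr (w := 0) (z := z) (by simpa using hd)]
  · have : tent m (-z) = tent m (2 * m - z % (2 * m)) := by
      refine tent_congr ⟨-(z / (2 * m)) - 1, ?_⟩
      linarith [Int.emod_add_mul_ediv z (2 * m)]
    rw [this]
    unfold tent
    rw [Int.emod_eq_of_lt (a := 2 * m - z % (2 * m)) (by omega) (by omega)]
    rw [show 2 * m - (2 * m - z % (2 * m)) = z % (2 * m) by ring]
    exact min_comm _ _

lemma tent_of_between (hm : 0 < m) {z : ℤ} (h0 : m ≤ z) (hz : z ≤ 2 * m) :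
    tent m z = 2 * m - z := by
  rw [← tent_neg hm z, tent_congr (w := 2 * m - z) (z := -z) ⟨-1, by ring⟩]
  exact tent_of_le (by omega) (by omega)

lemma tent_abs (hm : 0 < m) {z : ℤ} (hz : |z| ≤ m) : tent m z = |z| := by
  rcases abs_choice z with h | h <;> rw [h] at hz ⊢
  · exact tent_of_le (by rw [← h]; exact abs_nonneg z) hz
  · rw [← tent_neg hm]
    exact tent_of_le (by rw [← h]; exact abs_nonneg z) hz

/-- Congruent up to sign arguments give the same unordered pair of tents of sum and difference. -/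
lemma tent_pair (hm : 0 < m) (u b : ℤ) :
    (tent m (tent m u + b) = tent m (u + b) ∧ tent m (tent m u - b) = tent m (u - b)) ∨
    (tent m (tent m u + b) = tent m (u - b) ∧ tent m (tent m u - b) = tent m (u + b)) := by
  obtain ⟨e, he | he, hd⟩ := tent_sign m u <;> subst he
  · refine Or.inl ⟨tent_congr ?_, tent_congr ?_⟩
    · exact (by simpa using hd : 2 * m ∣ tent m u - u).trans (dvd_of_eq (by ring))
    · exact (by simpa using hd : 2 * m ∣ tent m u - u).trans (dvd_of_eq (by ring))
  · refine Or.inr ⟨?_, ?_⟩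
    · rw [← tent_neg hm (u - b)]
      exact tent_congr (hd.trans (dvd_of_eq (by ring)))
    · rw [← tent_neg hm (u + b)]
      exact tent_congr (hd.trans (dvd_of_eq (by ring)))

lemma dvd_mul_of_tent_eq {u b : ℤ} (hu : tent m u = tent m b) :
    2 * m ∣ u - b ∨ 2 * m ∣ u + b := by
  obtain ⟨e, he, hd⟩ := tent_sign m u
  obtain ⟨e', he', hd'⟩ := tent_sign m b
  rw [hu] at hd
  have h := dvd_sub hd' hd
  rcases he with rfl | rfl <;> rcases he' with rfl | rfl
  · exact Or.inl (h.trans (dvd_of_eq (by ring)))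
  · exact Or.inr (h.trans (dvd_of_eq (by ring)))
  · exact Or.inr (dvd_neg.mp (h.trans (dvd_of_eq (by ring))))
  · exact Or.inl (dvd_neg.mp (h.trans (dvd_of_eq (by ring))))

end FermatAgent.LocalP
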