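import Mathlib.NumberTheory.Padics.PadicVal.Basic
import Mathlib.Tactic.Linarith

/-!
# A tiny calculus for `q`-adic valuations of rational numbers
-/

set_option autoImplicit false

namespace FermatAgent.LocalP

/-- `x` is nonzero and has `q`-adic valuation exactly `r`. -/
def ValIs (q : ℕ) (x : ℚ) (r : ℤ) : Prop := x ≠ 0 ∧ padicValRat q x = r

/-- `x` has `q`-adic valuation at least `r` (`0` has all valuations). -/
def ValGe (q : ℕ) (x : ℚ) (r : ℤ) : Prop := x = 0 ∨ r ≤ padicValRat q x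

variable {q : ℕ} [hq : Fact q.Prime] {x y : ℚ} {r s : ℤ}

section

omit hq

lemma ValIs.of_ne_zero (h : x ≠ 0) : ValIs q x (padicValRat q x) := ⟨h, rfl⟩

lemma ValIs.ge (h : ValIs q x r) : ValGe q x r := Or.inr h.2.ge

lemma ValGe.mono (h : ValGe q x r) (hs : s ≤ r) : ValGe q x s := h.imp_right hs.trans

lemma ValIs.le_of_ge (h : ValIs q x r) (h' : ValGe q x s) : s ≤ r :=
  (h'.resolve_left h.1).trans h.2.le

lemma ValIs.unique (h : ValIs q x r) (h' : ValIs q x s) : r = s := h.2.symm.trans h'.2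

lemma ValIs.congr (h : ValIs q x r) (hs : r = s) : ValIs q x s := hs ▸ h

lemma ValIs.neg (h : ValIs q x r) : ValIs q (-x) r := ⟨neg_ne_zero.mpr h.1, by rw [padicValRat.neg]; exact h.2⟩

lemma ValGe.neg (h : ValGe q x r) : ValGe q (-x) r := by
  rcases h with rfl | h
  · exact Or.inl neg_zero
  · exact Or.inr (by rwa [padicValRat.neg])

end

lemma ValIs.mul (h : ValIs q x r) (h' : ValIs q y s) : ValIs q (x * y) (r + s) :=
  ⟨mul_ne_zero h.1 h'.1, by rw [padicValRat.mul h.1 h'.1, h.2, h'.2]⟩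

lemma ValGe.mul (h : ValGe q x r) (h' : ValGe q y s) : ValGe q (x * y) (r + s) := by
  rcases h with rfl | h
  · exact Or.inl (zero_mul _)
  rcases h' with rfl | h'
  · exact Or.inl (mul_zero _)
  by_cases hx : x = 0
  · exact Or.inl (by rw [hx, zero_mul])
  by_cases hy : y = 0
  · exact Or.inl (by rw [hy, mul_zero])
  exact Or.inr (by rw [padicValRat.mul hx hy]; exact add_le_add h h')

lemma ValIs.sq (h : ValIs q x r) : ValIs q (x ^ 2) (2 * r) :=
  ⟨pow_ne_zero 2 h.1, by rw [padicValRat.pow, h.2]; norm_num⟩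

lemma ValGe.add (h : ValGe q x r) (h' : ValGe q y r) : ValGe q (x + y) r := by
  rcases h with rfl | h
  · rwa [zero_add]
  rcases h' with rfl | h'
  · rw [add_zero]; exact Or.inr h
  by_cases hxy : x + y = 0
  · exact Or.inl hxy
  exact Or.inr ((le_min h h').trans (padicValRat.min_le_padicValRat_add hxy))

lemma ValGe.sub (h : ValGe q x r) (h' : ValGe q y r) : ValGe q (x - y) r := by
  rw [sub_eq_add_neg]; exact h.add h'.neg

lemma ValGe.sq (h : ValGe q x r) : ValGe q (x ^ 2) (2 * r) := by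
  rw [pow_two, two_mul]; exact h.mul h

lemma ValIs.add_right (h : ValIs q x r) (h' : ValGe q y s) (hrs : r < s) : ValIs q (x + y) r := by
  have hne : x + y ≠ 0 := by
    intro h0
    rw [eq_neg_of_add_eq_zero_left h0] at h
    have := h.le_of_ge h'.neg
    omega
  refine ⟨hne, le_antisymm ?_ ?_⟩
  · by_contra hlt
    push Not at hlt
    have h1 : ValGe q (x + y) (r + 1) := Or.inr (by omega)
    have h2 := h1.sub (h'.mono (by omega : r + 1 ≤ s))
    rw [add_sub_cancel_right] at h2
    have := h.le_of_ge h2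
    omega
  · exact (ValGe.add h.ge (h'.mono hrs.le)).resolve_left hne

lemma ValIs.add_left (h : ValGe q x s) (h' : ValIs q y r) (hrs : r < s) : ValIs q (x + y) r := by
  rw [add_comm]; exact h'.add_right h hrs

lemma ValIs.sub_right (h : ValIs q x r) (h' : ValGe q y s) (hrs : r < s) : ValIs q (x - y) r := by
  rw [sub_eq_add_neg]; exact h.add_right h'.neg hrs

lemma ValIs.sub_left (h : ValGe q x s) (h' : ValIs q y r) (hrs : r < s) : ValIs q (x - y) r := by
  rw [sub_eq_add_neg]; exact ValIs.add_left h h'.neg hrs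

omit hq in
lemma ValGe.intCast (z : ℤ) : ValGe q (z : ℚ) 0 :=
  Or.inr (by rw [padicValRat.of_int]; exact_mod_cast Nat.zero_le _)

omit hq in
lemma ValIs.intCast_of_not_dvd {z : ℤ} (h : ¬ (q : ℤ) ∣ z) : ValIs q (z : ℚ) 0 := by
  refine ⟨?_, ?_⟩
  · rw [Int.cast_ne_zero]; rintro rfl; exact h (dvd_zero _)
  · rw [padicValRat.of_int, padicValInt.eq_zero_of_not_dvd h, Nat.cast_zero]

lemma ValIs.self : ValIs q (q : ℚ) 1 :=
  ⟨Nat.cast_ne_zero.mpr hq.out.ne_zero, padicValRat.self hq.out.one_lt⟩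

/-- From `z * d = n`: lower bound for `d` and exact value for `n` bound `z` from above. -/
lemma le_of_mul_eq {z d n : ℚ} {e t : ℤ} (h : z * d = n) (hn : ValIs q n t) (hd : ValGe q d e)
    (hz : ValGe q z r) : r + e ≤ t := by
  rw [← h] at hn
  exact hn.le_of_ge (hz.mul hd)

/-- From `z * d = n` with exact values for `d` and `n`. -/
lemma valIs_of_mul_eq {z d n : ℚ} {e t : ℤ} (h : z * d = n) (hn : ValIs q n t) (hd : ValIs q d e) :
    ValIs q z (t - e) := by
  have hz : z ≠ 0 := by rintro rfl; exact hn.1 (by rw [← h, zero_mul])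
  refine ⟨hz, ?_⟩
  have := hn.2
  rw [← h, padicValRat.mul hz hd.1, hd.2] at this
  omega

/-- From `z * d = n` with exact value for `d` and a lower bound for `n`. -/
lemma valGe_of_mul_eq {z d n : ℚ} {e t : ℤ} (h : z * d = n) (hn : ValGe q n t) (hd : ValIs q d e) :
    ValGe q z (t - e) := by
  by_cases hz : z = 0
  · exact Or.inl hz
  refine Or.inr ?_
  have h2 : ValIs q n (padicValRat q z + e) := h ▸ (ValIs.of_ne_zero hz).mul hd
  have := h2.le_of_ge hn
  omega

end FermatAgent.LocalP
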