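import Fermat.Agent.LocalP.XFormulas
import Fermat.Agent.LocalP.ValApi
import Fermat.Agent.LocalP.Tent
import Mathlib.GroupTheory.OrderOfElement
import Mathlib.FieldTheory.Finite.Basic

/-!
# No rational point of order `p ≥ 5` on `y² + xy = x³ + A x² + B x` when `p ∤ v₂(B) ≥ 1`

The valuations of the `x`-coordinates of the multiples of such a point would have to be
`tent m (k r)`, which is impossible for `p ∤ m`.
-/

set_option autoImplicit false

namespace FermatAgent.LocalP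

open WeierstrassCurve WeierstrassCurve.Affine

/-- The curve `y² + xy = x³ + A x² + B x`. -/
def atTwoCurve (A B : ℤ) : WeierstrassCurve.Affine ℚ :=
  (⟨1, A, 0, B, 0⟩ : WeierstrassCurve ℚ)

variable {A B : ℤ}

lemma atTwoCurve_b₂ : (atTwoCurve A B).b₂ = 1 + 4 * (A : ℚ) := by
  simp [atTwoCurve, WeierstrassCurve.b₂]

lemma atTwoCurve_b₄ : (atTwoCurve A B).b₄ = 2 * (B : ℚ) := by
  simp [atTwoCurve, WeierstrassCurve.b₄]

lemma atTwoCurve_b₆ : (atTwoCurve A B).b₆ = 0 := by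
  simp [atTwoCurve, WeierstrassCurve.b₆]

lemma atTwoCurve_b₈ : (atTwoCurve A B).b₈ = -(B : ℚ) ^ 2 := by
  simp [atTwoCurve, WeierstrassCurve.b₈]

lemma x_ne_zero {p : ℕ} (hp : p.Prime) (hp2 : p ≠ 2) {Q : (atTwoCurve A B).Point} (hQ : Q ≠ 0)
    (h : p • Q = 0) : xCoord Q ≠ 0 ∧ (2 : ℕ) • Q ≠ 0 := by
  have := Fact.mk hp
  have h2 : (2 : ℕ) • Q ≠ 0 := by
    intro h2
    rw [← addOrderOf_dvd_iff_nsmul_eq_zero, addOrderOf_eq_prime h hQ] at h2
    exact hp2 ((Nat.prime_dvd_prime_iff_eq hp Nat.prime_two).mp h2)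
  refine ⟨fun h0 => ?_, h2⟩
  apply Ψ₂Sq_xCoord_ne_zero h2
  rw [h0, atTwoCurve_b₆]
  ring

lemma dup_atTwo {Q : (atTwoCurve A B).Point} (h2 : (2 : ℕ) • Q ≠ 0) :
    xCoord ((2 : ℕ) • Q) *
        (xCoord Q * (4 * xCoord Q ^ 2 + (1 + 4 * (A : ℚ)) * xCoord Q + 4 * B)) =
      (xCoord Q ^ 2 - B) ^ 2 := by
  have := xCoord_two_nsmul h2
  rw [atTwoCurve_b₂, atTwoCurve_b₄, atTwoCurve_b₆, atTwoCurve_b₈] at this
  linear_combination this

lemma prod_atTwo {P Q : (atTwoCurve A B).Point} (hP : P ≠ 0) (hQ : Q ≠ 0)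
    (hx : xCoord P ≠ xCoord Q) :
    (xCoord (P + Q) * xCoord (P - Q)) * (xCoord P - xCoord Q) ^ 2 =
      (xCoord P * xCoord Q - B) ^ 2 := by
  have := xCoord_add_mul_xCoord_sub hP hQ hx
  rw [atTwoCurve_b₄, atTwoCurve_b₆, atTwoCurve_b₈] at this
  linear_combination this

lemma sum_atTwo {P Q : (atTwoCurve A B).Point} (hP : P ≠ 0) (hQ : Q ≠ 0)
    (hx : xCoord P ≠ xCoord Q) :
    (xCoord (P + Q) + xCoord (P - Q)) * (xCoord P - xCoord Q) ^ 2 =
      (1 + 4 * (A : ℚ)) * (xCoord P * xCoord Q) +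
        (2 * (xCoord P * xCoord Q) + 2 * B) * (xCoord P + xCoord Q) := by
  have := xCoord_add_add_xCoord_sub hP hQ hx
  rw [atTwoCurve_b₂, atTwoCurve_b₄, atTwoCurve_b₆] at this
  linear_combination this

private lemma valIs_b₂ (A : ℤ) : ValIs 2 (1 + 4 * (A : ℚ)) 0 := by
  have h := ValIs.intCast_of_not_dvd (q := 2) (z := 1 + 4 * A) (by omega)
  push_cast at h
  exact h

private lemma valGe_four : ValGe 2 (4 : ℚ) 2 := by
  have h := (ValIs.self (q := 2)).ge.mul (ValIs.self (q := 2)).ge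
  norm_num at h
  exact h

private lemma valIs_two : ValIs 2 (2 : ℚ) 1 := by
  simpa using (ValIs.self (q := 2))

/-- The duplication formula when `2 r < ·`: used for `r < 0`. -/
lemma dup_neg {Q : (atTwoCurve A B).Point} (h2 : (2 : ℕ) • Q ≠ 0) {r : ℤ}
    (hr : ValIs 2 (xCoord Q) r) (h : r < 0) :
    ∃ r', r' < r ∧ ValIs 2 (xCoord ((2 : ℕ) • Q)) r' := by
  have key := dup_atTwo h2
  have hd0 : xCoord Q * (4 * xCoord Q ^ 2 + (1 + 4 * (A : ℚ)) * xCoord Q + 4 * B) ≠ 0 := by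
    intro h0; apply Ψ₂Sq_xCoord_ne_zero h2
    rw [atTwoCurve_b₂, atTwoCurve_b₄, atTwoCurve_b₆]; linear_combination h0
  have hn : ValIs 2 ((xCoord Q ^ 2 - B) ^ 2) (2 * (2 * r)) :=
    (hr.sq.sub_right (ValGe.intCast B) (by omega)).sq
  -- the denominator has valuation at least `r + min (2 + 2 r) r`
  have hd : ValGe 2 (xCoord Q * (4 * xCoord Q ^ 2 + (1 + 4 * (A : ℚ)) * xCoord Q + 4 * B))
      (r + min (2 + 2 * r) r) := by
    refine hr.ge.mul (((valGe_four.mul hr.sq.ge).mono (min_le_left _ _)).add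
      (((valIs_b₂ A).mul hr).ge.mono (by rw [zero_add]; exact min_le_right _ _)) |>.add
      ((valGe_four.mul (ValGe.intCast B)).mono (by omega)))
  have hz : xCoord ((2 : ℕ) • Q) ≠ 0 := by
    intro h0; rw [h0, zero_mul] at key; exact hn.1 key.symm
  have hle := le_of_mul_eq key hn hd (ValIs.of_ne_zero hz).ge
  exact ⟨_, by omega, ValIs.of_ne_zero hz⟩

variable {p : ℕ} {m : ℕ}

/-- Two `2`-adic units differ by an element of positive valuation. -/
lemma valGe_one_sub {x y : ℚ} (hx : ValIs 2 x 0) (hy : ValIs 2 y 0) : ValGe 2 (x - y) 1 := by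
  have key : ∀ z : ℚ, ValIs 2 z 0 → ¬ (2 : ℤ) ∣ z.num ∧ ¬ (2 : ℤ) ∣ (z.den : ℤ) := by
    intro z hz
    have hv := hz.2
    rw [padicValRat_def] at hv
    have hnot : ¬ ((2 : ℤ) ∣ z.num ∧ (2 : ℤ) ∣ (z.den : ℤ)) := fun ⟨h1, h2⟩ => by
      exact Nat.prime_two.not_dvd_one
        (z.reduced.gcd_eq_one ▸ Nat.dvd_gcd (Int.natCast_dvd.mp h1) (Int.natCast_dvd_natCast.mp h2))
    by_cases h1 : (2 : ℤ) ∣ z.num
    · have h2 : ¬ 2 ∣ z.den := fun h => hnot ⟨h1, Int.natCast_dvd_natCast.mpr h⟩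
      have hp1 : 1 ≤ padicValInt 2 z.num := by
        rw [padicValInt]
        exact one_le_padicValNat_of_dvd (Int.natAbs_ne_zero.mpr (Rat.num_ne_zero.mpr hz.1))
          (Int.natCast_dvd.mp h1)
      rw [padicValNat.eq_zero_of_not_dvd h2] at hv
      omega
    · refine ⟨h1, fun h2 => ?_⟩
      have hp1 : 1 ≤ padicValNat 2 z.den :=
        one_le_padicValNat_of_dvd z.den_ne_zero (Int.natCast_dvd_natCast.mp h2)
      rw [padicValInt.eq_zero_of_not_dvd h1] at hv
      omega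
  obtain ⟨hxn, hxd⟩ := key x hx
  obtain ⟨hyn, hyd⟩ := key y hy
  have hd : ValIs 2 ((((x.den : ℤ) * y.den : ℤ)) : ℚ) 0 :=
    ValIs.intCast_of_not_dvd (q := 2) fun h => (Int.prime_two.dvd_or_dvd h).elim hxd hyd
  obtain ⟨c, hc⟩ : (2 : ℤ) ∣ x.num * y.den - y.num * x.den := by
    have h2 : ∀ {a : ℤ}, ¬ (2 : ℤ) ∣ a → a % 2 = 1 := fun h => by omega
    refine Int.dvd_of_emod_eq_zero ?_
    rw [Int.sub_emod, Int.mul_emod, Int.mul_emod y.num, h2 hxn, h2 hxd, h2 hyn, h2 hyd]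
    norm_num
  have heq : (x - y) * ((((x.den : ℤ) * y.den : ℤ)) : ℚ) = (2 : ℚ) * (c : ℚ) := by
    have hc' := congrArg (fun z : ℤ => (z : ℚ)) hc
    push_cast at hc' ⊢
    rw [← hc', ← Rat.mul_den_eq_num x, ← Rat.mul_den_eq_num y]
    ring
  simpa using valGe_of_mul_eq heq (valIs_two.ge.mul (ValGe.intCast c)) hd

/-- All multiples of a rational `p`-torsion point have `x ≡ 0 mod 2`. -/
lemma one_le_val (hp : p.Prime) (hp5 : 5 ≤ p) (hB : ValIs 2 (B : ℚ) m) (hm : 0 < m)
    {Q : (atTwoCurve A B).Point} (hQ : Q ≠ 0) (h : p • Q = 0) :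
    1 ≤ padicValRat 2 (xCoord Q) := by
  have := Fact.mk hp
  have hord : addOrderOf Q = p := addOrderOf_eq_prime h hQ
  have hfin : IsOfFinAddOrder Q := addOrderOf_pos_iff.mp (hord ▸ hp.pos)
  let S := {T : (atTwoCurve A B).Point | T ≠ 0 ∧ p • T = 0}
  have hS : ∀ T ∈ S, ∀ k : ℕ, ¬ p ∣ k → k • T ∈ S := by
    intro T hT k hk
    refine ⟨fun h0 => hk ?_, by rw [← mul_nsmul, mul_comm, mul_nsmul, hT.2, nsmul_zero]⟩
    rwa [← addOrderOf_dvd_iff_nsmul_eq_zero, addOrderOf_eq_prime hT.2 hT.1] at h0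
  have hnd : ∀ k : ℕ, 0 < k → k < 5 → ¬ p ∣ k := fun k h0 h5 hd =>
    absurd (Nat.le_of_dvd h0 hd) (by omega)
  -- no element of `S` has negative valuation
  have hnn : ∀ T ∈ S, 0 ≤ padicValRat 2 (xCoord T) := by
    intro T hT
    by_contra hneg
    push Not at hneg
    have iter : ∀ j : ℕ, padicValRat 2 (xCoord ((2 ^ j) • T)) ≤ padicValRat 2 (xCoord T) - j := by
      intro j
      induction j with
      | zero => simp
      | succ j ih =>
        have hTj : (2 ^ j) • T ∈ S :=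
          hS T hT _ (fun hd => hnd 2 (by norm_num) (by norm_num) (hp.dvd_of_dvd_pow hd))
        obtain ⟨hx0, h2⟩ := x_ne_zero hp (by omega) hTj.1 hTj.2
        obtain ⟨r', hr', hv⟩ := dup_neg h2 (ValIs.of_ne_zero hx0) (by omega)
        rw [pow_succ, mul_comm, mul_nsmul', hv.2]
        push_cast
        omega
    obtain ⟨j, hj0, hj⟩ : ∃ j, 0 < j ∧ (2 ^ j) • T = T := by
      refine ⟨p - 1, by omega, ?_⟩
      have hmod : 2 ^ (p - 1) ≡ 1 [MOD p] := by
        simpa [Nat.totient_prime hp] using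
          Nat.ModEq.pow_totient ((Nat.coprime_primes Nat.prime_two hp).mpr (by omega))
      conv_rhs => rw [← one_nsmul T]
      rw [nsmul_eq_nsmul_iff_modEq, addOrderOf_eq_prime hT.2 hT.1]
      exact hmod
    have := iter j
    rw [hj] at this
    omega
  have hQS : Q ∈ S := ⟨hQ, h⟩
  rcases (hnn Q hQS).lt_or_eq with hlt | heq
  · omega
  exfalso
  obtain ⟨hx1, h2⟩ := x_ne_zero hp (by omega) hQ h
  have hv1 : ValIs 2 (xCoord Q) 0 := ⟨hx1, heq.symm⟩
  have hv2 : ValIs 2 (xCoord ((2 : ℕ) • Q)) 0 := by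
    have hd : ValIs 2 (xCoord Q * (4 * xCoord Q ^ 2 + (1 + 4 * (A : ℚ)) * xCoord Q + 4 * B))
        (0 + (0 + 0)) :=
      hv1.mul ((ValIs.add_left (valGe_four.mul hv1.sq.ge) ((valIs_b₂ A).mul hv1) (by norm_num)).add_right
        (valGe_four.mul (ValGe.intCast B)) (by norm_num))
    exact (valIs_of_mul_eq (dup_atTwo h2) (hv1.sq.sub_right hB.ge (by omega)).sq hd).congr (by norm_num)
  have hne : xCoord ((2 : ℕ) • Q) ≠ xCoord Q := by
    have h21 : (2 : ℕ) • Q = Q + Q := two_nsmul Q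
    refine xCoord_ne_of_ne_neg h2 hQ (fun e => hQ ?_) (fun e => ?_)
    · rwa [h21, add_eq_left] at e
    · apply (hS Q hQS 3 (hnd 3 (by norm_num) (by norm_num))).1
      rw [show (3 : ℕ) = 2 + 1 from rfl, add_nsmul, one_nsmul, e, neg_add_cancel]
  -- two units differ by an element of positive valuation
  have hdiff : ValGe 2 (xCoord ((2 : ℕ) • Q) - xCoord Q) 1 := by
    have hsub : xCoord ((2 : ℕ) • Q) - xCoord Q ≠ 0 := sub_ne_zero.mpr hne
    exact valGe_one_sub hv2 hv1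
  have hnum : ValIs 2 ((1 + 4 * (A : ℚ)) * (xCoord ((2 : ℕ) • Q) * xCoord Q) +
      (2 * (xCoord ((2 : ℕ) • Q) * xCoord Q) + 2 * B) * (xCoord ((2 : ℕ) • Q) + xCoord Q)) 0 := by
    refine ((valIs_b₂ A).mul ((hv2.mul hv1).congr (by norm_num : (0 : ℤ) + 0 = 0))).congr
      (by norm_num : (0 : ℤ) + 0 = 0) |>.add_right (s := 1 + 0) ?_ (by norm_num)
    refine ValGe.mul (((valIs_two.mul (hv2.mul hv1)).ge.mono (by norm_num)).add
      ((valIs_two.ge.mul (ValGe.intCast B)).mono (by norm_num))) (hv2.ge.add hv1.ge)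
  have hsum := sum_atTwo h2 hQ hne
  have h3 : (2 : ℕ) • Q + Q ∈ S := by
    have := hS Q hQS 3 (hnd 3 (by norm_num) (by norm_num))
    rwa [show (3 : ℕ) = 2 + 1 from rfl, add_nsmul, one_nsmul] at this
  rw [show (2 : ℕ) • Q - Q = Q by rw [two_nsmul, add_sub_cancel_right]] at hsum
  have := le_of_mul_eq hsum hnum hdiff.sq
    ((ValGe.mono (Or.inr le_rfl) (hnn _ h3)).add (ValGe.mono hv1.ge le_rfl))
  omega
/-- No rational point of prime order `p ≥ 5` when `p ∤ m = v₂(B)`. -/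
theorem atTwo_eq_zero_of_nsmul_eq_zero (hp : p.Prime) (hp5 : 5 ≤ p) (hB : ValIs 2 (B : ℚ) m)
    (hm : 0 < m) (hpm : ¬ p ∣ m) {Q : (atTwoCurve A B).Point} (h : p • Q = 0) : Q = 0 := by
  by_contra hQ
  have : Fact p.Prime := ⟨hp⟩
  have hord : addOrderOf Q = p := addOrderOf_eq_prime h hQ
  have hnz : ∀ k : ℕ, ¬ p ∣ k → k • Q ≠ 0 := fun k hk h0 => hk (by
    rwa [← addOrderOf_dvd_iff_nsmul_eq_zero, hord] at h0)
  have hnz' : ∀ k : ℕ, 0 < k → k < p → k • Q ≠ 0 := fun k h0 hk =>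
    hnz k (fun hd => absurd (Nat.le_of_dvd h0 hd) (by omega))
  have htors : ∀ k : ℕ, p • (k • Q) = 0 := fun k => by
    rw [← mul_nsmul, mul_comm, mul_nsmul, h, nsmul_zero]
  have hsymm : ∀ a b : ℕ, a + b = p → xCoord (a • Q) = xCoord (b • Q) := fun a b hab => by
    rw [← xCoord_neg (b • Q)]
    congr 1
    rw [eq_neg_iff_add_eq_zero, ← add_nsmul, hab, h]
  set R : ℕ → ℤ := fun k => padicValRat 2 (xCoord (k • Q)) with hR
  have hx : ∀ k : ℕ, 0 < k → k < p → ValIs 2 (xCoord (k • Q)) (R k) := fun k h0 hk =>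
    ValIs.of_ne_zero (x_ne_zero hp (by omega) (hnz' k h0 hk) (htors k)).1
  have h1le : ∀ k : ℕ, 0 < k → k < p → 1 ≤ R k := fun k h0 hk =>
    one_le_val hp hp5 hB hm (hnz' k h0 hk) (htors k)
  have hdbl : ∀ k : ℕ, 0 < k → k < p → 1 ≤ padicValRat 2 (xCoord ((2 : ℕ) • (k • Q))) := by
    intro k h0 hk
    refine one_le_val hp hp5 hB hm (x_ne_zero hp (by omega) (hnz' k h0 hk) (htors k)).2 ?_
    rw [← mul_nsmul, mul_comm, mul_nsmul, htors, nsmul_zero]
  have hdup : ∀ T : (atTwoCurve A B).Point, (2 : ℕ) • T ≠ 0 → xCoord T *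
      (4 * xCoord T ^ 2 + (1 + 4 * (A : ℚ)) * xCoord T + 4 * B) ≠ 0 := by
    intro T h2 hd
    apply Ψ₂Sq_xCoord_ne_zero h2
    rw [atTwoCurve_b₂, atTwoCurve_b₄, atTwoCurve_b₆]
    linear_combination hd
  -- every multiple has valuation `< m`
  have hlt : ∀ k : ℕ, 0 < k → k < p → R k < m := by
    intro k h0 hk
    by_contra hge
    push Not at hge
    have hv := hx k h0 hk
    obtain ⟨hxk, h2⟩ := x_ne_zero hp (by omega) (hnz' k h0 hk) (htors k)
    have hn : ValIs 2 ((xCoord (k • Q) ^ 2 - B) ^ 2) (2 * (m : ℤ)) :=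
      (ValIs.sub_left hv.sq.ge hB (by omega)).sq
    have hd : ValGe 2 (xCoord (k • Q) *
        (4 * xCoord (k • Q) ^ 2 + (1 + 4 * (A : ℚ)) * xCoord (k • Q) + 4 * B)) (R k + m) :=
      hv.ge.mul (((valGe_four.mul hv.sq.ge).mono (by omega)).add
        (((valIs_b₂ A).mul hv).ge.mono (by omega)) |>.add
        ((valGe_four.mul hB.ge).mono (by omega)))
    have := le_of_mul_eq (dup_atTwo h2) hn hd (Or.inr (hdbl k h0 hk))
    omega
  have hmZ : (0 : ℤ) < m := by exact_mod_cast hm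
  set r := R 1 with hr
  have hr1 : 1 ≤ r := h1le 1 one_pos (by omega)
  have hrm : r < m := hlt 1 one_pos (by omega)
  have hx1 : ValIs 2 (xCoord Q) r := by simpa using hx 1 one_pos (by omega)
  have hR1 : R 1 = tent m ((1 : ℕ) * r) := by
    rw [tent_of_le (by push_cast; omega) (by push_cast; omega), Nat.cast_one, one_mul]
  -- duplication
  have hR2 : R 2 = tent m ((2 : ℕ) * r) := by
    have h2 := hnz' 2 two_pos (by omega)
    have hd : ValIs 2 (xCoord Q *
        (4 * xCoord Q ^ 2 + (1 + 4 * (A : ℚ)) * xCoord Q + 4 * B)) (r + r) :=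
      hx1.mul (((ValIs.add_left (valGe_four.mul hx1.sq.ge) (((valIs_b₂ A).mul hx1).congr (zero_add r))
        (by omega))).add_right (valGe_four.mul hB.ge) (by omega))
    have hlt2 := hlt 2 two_pos (by omega)
    have hv2 := hx 2 two_pos (by omega)
    push_cast
    rcases lt_trichotomy (2 * r) m with hc | hc | hc
    · have := (valIs_of_mul_eq (dup_atTwo h2)
        ((hx1.sq.sub_right hB.ge hc).sq) hd).unique hv2
      rw [tent_of_le (by omega) hc.le]
      omega
    · have := hv2.le_of_ge (valGe_of_mul_eq (dup_atTwo h2)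
        (((hx1.sq.ge.mono (hc ▸ le_rfl)).sub hB.ge).sq) hd)
      omega
    · have := (valIs_of_mul_eq (dup_atTwo h2)
        ((ValIs.sub_left hx1.sq.ge hB hc).sq) hd).unique hv2
      rw [tent_of_between hmZ hc.le (by omega)]
      omega
  -- the step
  have step : ∀ k : ℕ, 2 ≤ k → k + 1 < p → R (k - 1) = tent m (((k - 1 : ℕ) : ℤ) * r) →
      R k = tent m ((k : ℤ) * r) → R (k + 1) = tent m (((k + 1 : ℕ) : ℤ) * r) := by
    intro k hk2 hkp ihm ih
    have hkQ := hnz' k (by omega) (by omega)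
    have hsplit : k • Q = (k - 1) • Q + Q := by
      rw [← succ_nsmul, Nat.sub_add_cancel (by omega)]
    have hne : xCoord (k • Q) ≠ xCoord Q := by
      refine xCoord_ne_of_ne_neg hkQ hQ (fun e => ?_) (fun e => ?_)
      · rw [hsplit, add_eq_right] at e
        exact hnz' (k - 1) (by omega) (by omega) e
      · apply hnz' (k + 1) (by omega) hkp
        rw [succ_nsmul, e, neg_add_cancel]
    have hadd : k • Q + Q = (k + 1) • Q := (succ_nsmul Q k).symm
    have hsub : k • Q - Q = (k - 1) • Q := by rw [hsplit, add_sub_cancel_right]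
    have hva := hx k (by omega) (by omega)
    have hvm := hx (k - 1) (by omega) (by omega)
    have hvp := hx (k + 1) (by omega) hkp
    have hprod := prod_atTwo hkQ hQ hne
    have hsum := sum_atTwo hkQ hQ hne
    rw [hadd, hsub] at hprod hsum
    have hma := h1le k (by omega) (by omega)
    have hmm := h1le (k - 1) (by omega) (by omega)
    have hmp := h1le (k + 1) (by omega) hkp
    have hMa := hlt k (by omega) (by omega)
    have hMp := hlt (k + 1) (by omega) hkp
    have hMm := hlt (k - 1) (by omega) (by omega)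
    set a := R k with ha
    set rm := R (k - 1) with hrm'
    set rp := R (k + 1) with hrp'
    have hab : a ≠ r := by
      intro hab
      rw [hab] at hva
      have hnum : ValIs 2 ((1 + 4 * (A : ℚ)) * (xCoord (k • Q) * xCoord Q) +
          (2 * (xCoord (k • Q) * xCoord Q) + 2 * B) * (xCoord (k • Q) + xCoord Q)) (2 * r) := by
        refine (((valIs_b₂ A).mul (hva.mul hx1)).congr (by ring)).add_right
          (s := (1 + min (2 * r) m) + r) ?_ (by omega)
        exact ValGe.mul (((valIs_two.mul (hva.mul hx1)).ge.mono (by omega)).add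
          ((valIs_two.mul hB).ge.mono (by omega))) (hva.ge.add hx1.ge)
      have := le_of_mul_eq hsum hnum (hva.ge.sub hx1.ge).sq
        ((hvp.ge.mono hmp).add (hvm.ge.mono hmm))
      omega
    have hd : ValIs 2 ((xCoord (k • Q) - xCoord Q) ^ 2) (2 * min a r) := by
      rcases lt_or_gt_of_ne hab with hc | hc
      · exact ((hva.sub_right hx1.ge hc).sq).congr (by omega)
      · exact ((ValIs.sub_left hva.ge hx1 hc).sq).congr (by omega)
    have hpair := tent_pair hmZ ((k : ℤ) * r) r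
    rw [← ih] at hpair
    have e1 : (k : ℤ) * r + r = ((k + 1 : ℕ) : ℤ) * r := by push_cast; ring
    have e2 : (k : ℤ) * r - r = ((k - 1 : ℕ) : ℤ) * r := by
      rw [Nat.cast_sub (by omega)]; push_cast; ring
    rw [e1, e2, ← ihm] at hpair
    have habs : tent m (a - r) = |a - r| := tent_abs hmZ (abs_le.mpr ⟨by omega, by omega⟩)
    have hmin : 2 * min a r = a + r - |a - r| := by
      rcases le_total a r with hc | hc
      · rw [abs_of_nonpos (by omega), min_eq_left hc]; ring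
      · rw [abs_of_nonneg (by omega), min_eq_right hc]; ring
    have hpv : ValIs 2 (xCoord ((k + 1) • Q) * xCoord ((k - 1) • Q)) (rp + rm) := hvp.mul hvm
    rcases lt_trichotomy (a + r) m with hc | hc | hc
    · have := (valIs_of_mul_eq hprod (((hva.mul hx1).sub_right hB.ge hc).sq) hd).unique hpv
      rw [tent_of_le (show 0 ≤ a + r by omega) hc.le, habs] at hpair
      omega
    · have := hpv.le_of_ge (valGe_of_mul_eq hprod
        ((((hva.mul hx1).ge.mono hc.ge).sub hB.ge).sq) hd)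
      rw [tent_of_le (show 0 ≤ a + r by omega) hc.le, habs] at hpair
      omega
    · have := (valIs_of_mul_eq hprod ((ValIs.sub_left (hva.mul hx1).ge hB hc).sq) hd).unique hpv
      rw [tent_of_between hmZ hc.le (show a + r ≤ 2 * m by omega), habs] at hpair
      omega
  have main : ∀ j : ℕ, j + 2 < p → R (j + 1) = tent m (((j + 1 : ℕ) : ℤ) * r) ∧
      R (j + 2) = tent m (((j + 2 : ℕ) : ℤ) * r) := by
    intro j hj
    induction j with
    | zero => exact ⟨hR1, hR2⟩
    | succ j ih =>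
      obtain ⟨i1, i2⟩ := ih (by omega)
      exact ⟨i2, step (j + 2) (by omega) (by omega) (by simpa using i1) i2⟩
  have hall : ∀ k : ℕ, 0 < k → k < p → R k = tent m ((k : ℤ) * r) := by
    intro k h0 hk
    rcases Nat.lt_or_ge k 2 with h2 | h2
    · obtain rfl : k = 1 := by omega
      exact hR1
    · simpa [Nat.sub_add_cancel h2] using (main (k - 2) (by omega)).2
  have e1 : tent m (((p - 1 : ℕ) : ℤ) * r) = tent m r := by
    rw [← hall _ (by omega) (by omega), hR]
    simp only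
    rw [hsymm (p - 1) 1 (by omega)]
    simpa [hR] using hR1
  have e2 : tent m (((p - 2 : ℕ) : ℤ) * r) = tent m (2 * r) := by
    rw [← hall _ (by omega) (by omega), hR]
    simp only
    rw [hsymm (p - 2) 2 (by omega)]
    simpa [hR] using hR2
  have hA : ¬ 2 * (m : ℤ) ∣ (p : ℤ) * r := by
    intro hd
    have hcop : IsCoprime ((p : ℤ)) (2 * m) := by
      rw [Int.isCoprime_iff_gcd_eq_one]
      have : (2 * (m : ℤ)).natAbs = 2 * m := by omega
      rw [Int.gcd, Int.natAbs_natCast, this]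
      exact (Nat.Prime.coprime_iff_not_dvd hp).mpr fun hd' =>
        (hp.dvd_mul.mp hd').elim (fun h' => by have := Nat.le_of_dvd two_pos h'; omega) hpm
    have := Int.le_of_dvd (by omega) (hcop.symm.dvd_of_dvd_mul_left hd)
    omega
  have hB2 : ¬ 2 * (m : ℤ) ∣ 2 * r := fun hd => by
    have := Int.le_of_dvd (by omega) (Int.dvd_of_mul_dvd_mul_left two_ne_zero hd)
    omega
  rw [Nat.cast_sub (by omega)] at e1 e2
  push_cast at e1 e2
  rcases dvd_mul_of_tent_eq e1 with d1 | d1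
  · rcases dvd_mul_of_tent_eq e2 with d2 | d2
    · exact hB2 ((dvd_sub d1 d2).trans (dvd_of_eq (by ring)))
    · exact hA (d2.trans (dvd_of_eq (by ring)))
  · exact hA (d1.trans (dvd_of_eq (by ring)))

end FermatAgent.LocalP
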