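import Fermat.Agent.Local.GoodReduction
import Fermat.Agent.Local.TorsionCount
import Fermat.Agent.LocalP.XFormulas
import Fermat.Agent.RT.Frobenius
import Fermat.Prelude.Def_FLTPrelim_CofixedLine
import Mathlib.Algebra.Polynomial.Splits

/-!
# A Galois-stable line at `p` excludes "all `p`-torsion reduces to the origin"

All roots of `preΨ' p` (degree `(p² - 1)/2`, leading coefficient `p`, integral coefficients) would
be non-integral at `p`; the inverse of the product of those coming from the line is a rational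
number which would have valuation strictly between `0` and `v(p)`.
-/

set_option autoImplicit false

open scoped WeierstrassCurve.Affine

namespace FermatAgent.LocalP

open WeierstrassCurve WeierstrassCurve.Affine WeierstrassCurve.Affine.Point Polynomial
open FermatAgent.Local (qbarCurve InE1)

noncomputable section

local notation "Qb" => AlgebraicClosure ℚ

lemma xCoord_smul (W : WeierstrassCurve ℤ) (σ : Qb ≃ₐ[ℚ] Qb) (P : (qbarCurve W).Point) :
    xCoord (σ • P) = σ (xCoord P) := by
  rcases P with _ | ⟨x, y, h⟩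
  · exact (map_zero σ).symm
  · rw [algEquiv_smul_def, Point.map_some]; rfl

/-- A rational number in the maximal ideal of a place over `p` has valuation at most `v(p)`. -/
lemma val_rat_le {A : ValuationSubring Qb} {p : ℕ} (hp : p.Prime) (hA : A.LiesOverPrime p) {r : ℚ}
    (hr : A.valuation (algebraMap ℚ Qb r) < 1) :
    A.valuation (algebraMap ℚ Qb r) ≤ A.valuation (p : Qb) := by
  have hden0 : ((r.den : ℤ) : Qb) ≠ 0 := by
    rw [Int.cast_natCast]; exact Nat.cast_ne_zero.mpr r.den_ne_zero
  have he : algebraMap ℚ Qb r * ((r.den : ℤ) : Qb) = (r.num : Qb) := by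
    have := congrArg (algebraMap ℚ Qb) (Rat.mul_den_eq_num r)
    rw [map_mul, map_natCast, map_intCast] at this
    rw [Int.cast_natCast]; exact this
  have hle : A.valuation (r.num : Qb) ≤ 1 :=
    FermatAgent.Local.val_le_one_of_mem (intCast_mem A _)
  by_cases hd : (p : ℤ) ∣ (r.den : ℤ)
  · have hn : ¬ (p : ℤ) ∣ r.num := fun hn => hp.not_dvd_one
      (r.reduced.gcd_eq_one ▸ Nat.dvd_gcd (Int.natCast_dvd.mp hn) (Int.natCast_dvd_natCast.mp hd))
    have h1 := FermatAgent.Local.val_intCast_eq_one hp hA hn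
    have h2 : A.valuation ((r.den : ℤ) : Qb) ≤ 1 :=
      FermatAgent.Local.val_le_one_of_mem (intCast_mem A _)
    rw [← he, map_mul] at h1
    exact absurd h1 (mul_lt_one_of_lt_of_le hr h2).ne
  · have h1 := FermatAgent.Local.val_intCast_eq_one hp hA hd
    have h2 : A.valuation (algebraMap ℚ Qb r) = A.valuation (r.num : Qb) := by
      rw [← he, map_mul, h1, mul_one]
    rw [h2] at hr ⊢
    obtain ⟨k, hk⟩ := (FermatAgent.Local.val_intCast_lt_one_iff hp hA r.num).mp hr
    rw [hk, Int.cast_mul, Int.cast_natCast, map_mul]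
    exact mul_le_of_le_one_right' (FermatAgent.Local.val_le_one_of_mem (intCast_mem A _))

theorem exists_torsion_not_inE1 (W : WeierstrassCurve ℤ) (hΔ : W.Δ ≠ 0) {p : ℕ} (hp : p.Prime)
    (hp2 : p ≠ 2) (A : ValuationSubring Qb) (hA : A.LiesOverPrime p)
    (N : Submodule (ZMod p) (Submodule.torsionBy ℤ (qbarCurve W).Point p))
    (hst : IsGaloisStable (S := ℚ) N) (hbot : N ≠ ⊥) (htop : N ≠ ⊤) :
    ∃ T : Submodule.torsionBy ℤ (qbarCurve W).Point p, ¬ InE1 A (qbarCurve W) T.1 := by
  classical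
  by_contra hall
  push Not at hall
  have := FermatAgent.RT.isGalois_algClosureRat
  set E := qbarCurve W with hE
  have hEΔ : E.Δ ≠ 0 := by
    rw [hE, FermatAgent.Local.qbarCurve_Δ]; exact_mod_cast hΔ
  have hpQ : (p : Qb) ≠ 0 := Nat.cast_ne_zero.mpr hp.ne_zero
  have hodd : Odd p := hp.odd_of_ne_two hp2
  have hkill : ∀ T : Submodule.torsionBy ℤ E.Point p, p • T.1 = 0 := fun T => by
    have := (Submodule.mem_torsionBy_iff _ _).mp T.2
    rwa [natCast_zsmul] at this
  set f := E.preΨ' p with hf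
  have hlead : f.leadingCoeff = (p : Qb) := by
    rw [hf, leadingCoeff_preΨ' _ hpQ, if_neg (Nat.not_even_iff_odd.mpr hodd)]
  have hf0 : f ≠ 0 := preΨ'_ne_zero _ hpQ
  have hΨ : ∀ x : Qb, (E.ΨSq (p : ℤ)).eval x = 0 ↔ f.eval x = 0 := fun x => by
    rw [ΨSq_ofNat, if_neg (Nat.not_even_iff_odd.mpr hodd), mul_one, eval_pow,
      pow_eq_zero_iff two_ne_zero, hf]
  have hroots : ∀ r ∈ f.roots, 1 < A.valuation r := by
    intro r hr
    rw [mem_roots hf0, IsRoot] at hr
    obtain ⟨y, hy⟩ := FermatAgent.Local.exists_point_over E hEΔ r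
    have hP : p • Point.some r y hy = 0 :=
      (FermatAgent.Local.nsmul_eq_zero_iff (W := E) hy p).mpr ((hΨ r).mpr hr)
    have := hall ⟨Point.some r y hy, by rw [Submodule.mem_torsionBy_iff, natCast_zsmul, hP]⟩
    exact FermatAgent.Local.one_lt_val_of_not_mem this
  have hmem : ∀ T : Submodule.torsionBy ℤ E.Point p, T ≠ 0 → xCoord T.1 ∈ f.roots := by
    intro T hT
    obtain ⟨y, hy, he⟩ := exists_eq_some (P := T.1) (fun h => hT (Subtype.ext h))
    rw [mem_roots hf0, IsRoot, ← hΨ]
    exact (FermatAgent.Local.nsmul_eq_zero_iff (W := E) hy p).mp (he ▸ hkill T)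
  have hfin : Finite (Submodule.torsionBy ℤ E.Point p) :=
    FermatAgent.Local.finite_torsion_qbar (W.map (Int.castRingHom ℚ))
      (by rw [WeierstrassCurve.map_Δ, eq_intCast]; exact_mod_cast hΔ)
      hp.ne_zero
  let S : Set (Submodule.torsionBy ℤ E.Point p) := {T | T ∈ N ∧ T ≠ 0}
  let X : Finset Qb := S.toFinite.toFinset.image fun T => xCoord T.1
  have hXmem : ∀ x, x ∈ X ↔ ∃ T, T ∈ N ∧ T ≠ 0 ∧ xCoord T.1 = x := fun x => by
    simp only [X, S, Finset.mem_image, Set.Finite.mem_toFinset, Set.mem_ofPred_eq, and_assoc]; rfl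
  have hXsub : X.val ≤ f.roots := by
    rw [Multiset.le_iff_subset X.nodup]
    intro x hx
    obtain ⟨T, -, hT0, rfl⟩ := (hXmem x).mp hx
    exact hmem T hT0
  obtain ⟨R, hR⟩ := Multiset.le_iff_exists_add.mp hXsub
  -- some root does not come from `N`
  obtain ⟨T, hTN⟩ : ∃ T, T ∉ N := by
    by_contra hc
    push Not at hc
    exact htop (eq_top_iff.mpr fun T _ => hc T)
  have hT0 : T ≠ 0 := fun h => hTN (h ▸ N.zero_mem)
  have hTR : xCoord T.1 ∈ R := by
    have := hmem T hT0
    rw [hR, Multiset.mem_add] at this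
    refine this.resolve_left fun hX => ?_
    obtain ⟨T', hT', hT'0, hx⟩ := (hXmem _).mp hX
    have h1 : T.1 ≠ 0 := fun h => hT0 (Subtype.ext h)
    have h2 : T'.1 ≠ 0 := fun h => hT'0 (Subtype.ext h)
    by_contra hne
    exact xCoord_ne_of_ne_neg h1 h2
      (fun e => hTN (by rwa [show T = T' from Subtype.ext e]))
      (fun e => hTN (by rw [show T = -T' from Subtype.ext e]; exact N.neg_mem hT')) hx.symm
  obtain ⟨T₁, hT₁, hT₁0⟩ := N.ne_bot_iff.mp hbot
  have hXne : X.Nonempty := ⟨_, (hXmem _).mpr ⟨T₁, hT₁, hT₁0, rfl⟩⟩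
  -- the product over `N` is rational
  have hfix : ∀ σ : Qb ≃ₐ[ℚ] Qb, σ (X.prod id) = X.prod id := by
    intro σ
    have himg : X.image σ = X := by
      refine Finset.eq_of_subset_of_card_le (fun x hx => ?_)
        (by rw [Finset.card_image_of_injective _ σ.injective])
      obtain ⟨x', hx', rfl⟩ := Finset.mem_image.mp hx
      obtain ⟨T', hT', hT'0, rfl⟩ := (hXmem x').mp hx'
      refine (hXmem _).mpr ⟨σ • T', hst σ T' hT', fun h => hT'0 ?_, xCoord_smul W σ T'.1⟩
      exact (smul_eq_zero_iff_eq σ).mp h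
    conv_rhs => rw [← himg, Finset.prod_image σ.injective.injOn]
    exact map_prod σ _ _
  obtain ⟨r, hr⟩ := (InfiniteGalois.mem_range_algebraMap_iff_fixed (k := ℚ) (X.prod id)).mpr hfix
  have hXv : 1 < A.valuation (X.prod id) := by
    obtain ⟨x₁, hx₁⟩ := hXne
    rw [map_prod, ← Finset.mul_prod_erase X _ hx₁]
    exact lt_of_lt_of_le (hroots _ (Multiset.subset_of_le hXsub hx₁))
      (le_mul_of_one_le_right' (Finset.one_le_prod'
        fun x hx => (hroots x (Multiset.subset_of_le hXsub (Finset.mem_of_mem_erase hx))).le))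
  have hRv : 1 < A.valuation R.prod := by
    obtain ⟨R', hR'⟩ := Multiset.exists_cons_of_mem hTR
    rw [hR', Multiset.prod_cons, map_mul]
    refine lt_of_lt_of_le (hroots _ (by rw [hR]; exact Multiset.mem_add.mpr (Or.inr hTR))) ?_
    refine le_mul_of_one_le_right' ?_
    rw [map_multiset_prod]
    refine Multiset.one_le_prod fun v hv => ?_
    obtain ⟨x, hx, rfl⟩ := Multiset.mem_map.mp hv
    exact (hroots x (by rw [hR, hR']; simp [hx])).le
  -- `v(p) * v(∏_X) ≥ 1`
  have hkey : 1 ≤ A.valuation (p : Qb) * A.valuation (X.prod id) := by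
    have h1 : A.valuation (algebraMap ℚ Qb r⁻¹) < 1 := by
      rw [map_inv₀, map_inv₀, hr]
      exact inv_lt_one_of_one_lt₀ hXv
    have h2 := val_rat_le hp hA h1
    rw [map_inv₀, map_inv₀, hr] at h2
    calc (1 : A.ValueGroup) = (A.valuation (X.prod id))⁻¹ * A.valuation (X.prod id) :=
          (inv_mul_cancel₀ (ne_zero_of_lt hXv)).symm
      _ ≤ _ := mul_le_mul_left h2 _
  -- the constant coefficient
  have hc0 : A.valuation (f.coeff 0) =
      A.valuation (p : Qb) * A.valuation (X.prod id) * A.valuation R.prod := by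
    rw [(IsAlgClosed.splits f).coeff_zero_eq_leadingCoeff_mul_prod_roots, hlead, hR,
      Multiset.prod_add, show X.val.prod = X.prod id by rw [Finset.prod_eq_multiset_prod, Multiset.map_id]]
    simp [map_mul, mul_assoc]
  have hint : A.valuation (f.coeff 0) ≤ 1 := by
    have : f = (W.preΨ' p).map (Int.castRingHom Qb) := by
      rw [hf, hE, FermatAgent.Local.qbarCurve_eq, map_preΨ']
    rw [this, coeff_map]
    exact FermatAgent.Local.val_le_one_of_mem (intCast_mem A _)
  rw [hc0] at hint
  exact absurd hint (not_le.mpr (lt_of_lt_of_le hRv (le_mul_of_one_le_left' hkey)))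

end

end FermatAgent.LocalP
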