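import Fermat.Agent.LocalP.Minkowski
import Fermat.Agent.LocalP.Places
import Fermat.Agent.LocalP.NotAllInE1
import Mathlib.LinearAlgebra.FiniteDimensional.Lemmas
import Mathlib.FieldTheory.Finiteness

/-!
# A reducible mod `p` representation has a trivial sub or a trivial quotient

For `W` over `ℤ` whose inertia acts unipotently away from `p` and moves torsion inside `E₁` at `p`,
a Galois-stable line either is pointwise fixed or has trivial quotient action.
-/

set_option autoImplicit false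

open scoped WeierstrassCurve.Affine

namespace FermatAgent.LocalP

open WeierstrassCurve WeierstrassCurve.Affine WeierstrassCurve.Affine.Point
open FermatAgent.Local (qbarCurve InE1 qbarCurve_intCoeffs e1Subgroup)

noncomputable section

local notation "Qb" => AlgebraicClosure ℚ
local notation "GQ" => AlgebraicClosure ℚ ≃ₐ[ℚ] AlgebraicClosure ℚ

variable (W : WeierstrassCurve ℤ) (p : ℕ)

/-- The mod `p` torsion of the curve over `ℚ̄`. -/
abbrev Tors : Type := Submodule.torsionBy ℤ (qbarCurve W).Point p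

/-- Inertia away from `p` acts unipotently on `E[p]`. -/
def UnipotentAway : Prop :=
  ∀ q : ℕ, q.Prime → q ≠ p → ∀ A : ValuationSubring Qb, A.LiesOverPrime q →
    ∀ σ ∈ A.inertiaSubgroupIn ℚ, ∀ x : Tors W p, σ • (σ • x - x) = σ • x - x

/-- Inertia at `p` moves `p`-torsion only inside `E₁`. -/
def MovesInE1 : Prop :=
  ∀ A : ValuationSubring Qb, A.LiesOverPrime p → ∀ σ ∈ A.inertiaSubgroupIn ℚ, ∀ x : Tors W p,
    InE1 A (qbarCurve W) ((σ • x - x : Tors W p) : (qbarCurve W).Point)

variable {W p}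

lemma smul_sub' (σ : GQ) (x y : Tors W p) : σ • (x - y) = σ • x - σ • y := smul_sub σ x y

/-- The pointwise stabiliser of a stable submodule. -/
def subFix (N : Submodule (ZMod p) (Tors W p)) : Subgroup GQ where
  carrier := {σ | ∀ x ∈ N, σ • x = x}
  one_mem' x _ := one_smul _ x
  mul_mem' hσ hτ x hx := by rw [mul_smul, hτ x hx, hσ x hx]
  inv_mem' hσ x hx := inv_smul_eq_iff.mpr (hσ x hx).symm

/-- Automorphisms acting trivially on the quotient by a stable submodule. -/
def quotFix (N : Submodule (ZMod p) (Tors W p)) : Subgroup GQ where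
  carrier := {σ | ∀ x : Tors W p, σ • x - x ∈ N}
  one_mem' x := by rw [one_smul, sub_self]; exact N.zero_mem
  mul_mem' {σ τ} hσ hτ x := by
    rw [mul_smul]
    simpa using N.add_mem (hσ (τ • x)) (hτ x)
  inv_mem' {σ} hσ x := by
    have h := N.neg_mem (hσ (σ⁻¹ • x))
    rwa [smul_inv_smul, neg_sub] at h

variable {N : Submodule (ZMod p) (Tors W p)}

lemma subFix_normal (hst : IsGaloisStable (S := ℚ) N) : (subFix N).Normal where
  conj_mem σ hσ g x hx := by
    rw [mul_smul, mul_smul, hσ _ (hst _ x hx), smul_inv_smul]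

lemma quotFix_normal (hst : IsGaloisStable (S := ℚ) N) : (quotFix N).Normal where
  conj_mem σ hσ g x := by
    have h := hst g _ (hσ (g⁻¹ • x))
    rwa [smul_sub', smul_inv_smul, ← mul_smul, ← mul_smul] at h

/-- The automorphism `σ - 1` of `E[p]` as a linear map. -/
def moveMap (σ : GQ) : Tors W p →ₗ[ZMod p] Tors W p :=
  galoisRepModuleEnd ℚ (W.map (Int.castRingHom ℚ)) p σ - LinearMap.id

@[simp] lemma moveMap_apply (σ : GQ) (x : Tors W p) : moveMap σ x = σ • x - x := rfl

variable [Fact p.Prime] (hΔ : W.Δ ≠ 0)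

include hΔ in
lemma finrank_tors : Module.finrank (ZMod p) (Tors W p) = 2 := by
  have hp : p.Prime := Fact.out
  have hΔ' : (W.map (Int.castRingHom ℚ)).Δ ≠ 0 := by
    rw [WeierstrassCurve.map_Δ, eq_intCast]; exact_mod_cast hΔ
  have hfin : Finite (Tors W p) := FermatAgent.Local.finite_torsion_qbar _ hΔ' hp.ne_zero
  have h := Module.natCard_eq_pow_finrank (K := ZMod p) (V := Tors W p)
  rw [FermatAgent.Local.card_torsion_qbar _ hΔ' hp.ne_zero, Nat.card_zmod] at h
  exact (Nat.pow_right_injective hp.two_le h).symm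

include hΔ in
lemma finite_tors : FiniteDimensional (ZMod p) (Tors W p) :=
  Module.finite_of_finrank_eq_succ (finrank_tors hΔ)

include hΔ in
lemma line_le_eq (hbot : N ≠ ⊥) {M : Submodule (ZMod p) (Tors W p)} (htop : M ≠ ⊤)
    (hle : N ≤ M) : N = M := by
  have := finite_tors (p := p) hΔ
  refine Submodule.eq_of_le_of_finrank_le hle ?_
  have h1 : 1 ≤ Module.finrank (ZMod p) N := Submodule.one_le_finrank_iff.mpr hbot
  have h2 := Submodule.finrank_lt htop
  rw [finrank_tors hΔ] at h2
  omega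

include hΔ in
lemma finrank_line (hbot : N ≠ ⊥) (htop : N ≠ ⊤) : Module.finrank (ZMod p) N = 1 := by
  have := finite_tors (p := p) hΔ
  have h1 : 1 ≤ Module.finrank (ZMod p) N := Submodule.one_le_finrank_iff.mpr hbot
  have h2 := Submodule.finrank_lt htop
  rw [finrank_tors hΔ] at h2
  omega

include hΔ in
/-- A unipotent automorphism fixes a stable line and the quotient by it. -/
lemma mem_both_of_unipotent (hst : IsGaloisStable (S := ℚ) N) (hbot : N ≠ ⊥) (htop : N ≠ ⊤)
    {σ : GQ} (h : ∀ x : Tors W p, σ • (σ • x - x) = σ • x - x) :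
    σ ∈ subFix N ∧ σ ∈ quotFix N := by
  have := finite_tors (p := p) hΔ
  set D := moveMap (W := W) (p := p) σ with hD
  have hDD : ∀ x, D (D x) = 0 := fun x => by rw [hD, moveMap_apply, moveMap_apply, h, sub_self]
  have hker : N ≤ LinearMap.ker D := by
    have hmap : N.map D ≤ N := by
      rintro _ ⟨x, hx, rfl⟩
      exact N.sub_mem (hst σ x hx) hx
    rcases eq_or_ne (N.map D) ⊥ with h0 | h0
    · intro x hx
      rw [LinearMap.mem_ker, ← Submodule.mem_bot (ZMod p), ← h0]
      exact Submodule.mem_map_of_mem hx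
    · exfalso
      refine h0 ((Submodule.eq_bot_iff _).mpr ?_)
      have he := line_le_eq hΔ h0 htop hmap
      rintro _ ⟨x, hx, rfl⟩
      rw [← he] at hx
      obtain ⟨z, -, rfl⟩ := hx
      exact hDD z
  refine ⟨fun x hx => sub_eq_zero.mp (LinearMap.mem_ker.mp (hker hx)), fun x => ?_⟩
  by_cases hk : LinearMap.ker D = ⊤
  · have : D x = 0 := LinearMap.mem_ker.mp (hk ▸ Submodule.mem_top)
    show D x ∈ N
    rw [this]; exact N.zero_mem
  · rw [line_le_eq hΔ hbot hk hker]
    exact hDD x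

include hΔ in
/-- A stable line is pointwise fixed or has trivial quotient action. -/
theorem fixed_or_cofixed (hp2 : p ≠ 2) (haway : UnipotentAway W p) (hat : MovesInE1 W p)
    (hst : IsGaloisStable (S := ℚ) N) (hbot : N ≠ ⊥) (htop : N ≠ ⊤) :
    (∀ σ : GQ, ∀ x ∈ N, σ • x = x) ∨ (∀ σ : GQ, ∀ x : Tors W p, σ • x - x ∈ N) := by
  have hp : p.Prime := Fact.out
  have := subFix_normal hst
  have := quotFix_normal hst
  obtain ⟨L, hLfin, hL⟩ :=
    FermatAgent.Local.galoisRep_factorsThroughFiniteLevel (W.map (Int.castRingHom ℚ)) (n := p)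
      (by rw [WeierstrassCurve.map_Δ, eq_intCast]; exact_mod_cast hΔ) hp.ne_zero
  have hLfix : ∀ σ ∈ L.fixingSubgroup, ∀ x : Tors W p, σ • x = x := fun σ hσ x =>
    LinearMap.congr_fun (hL σ ((IntermediateField.mem_fixingSubgroup_iff L σ).mp hσ)) x
  obtain ⟨A₀, hA₀⟩ := FermatAgent.RT.exists_liesOverPrime hp
  let L₀ : Submodule (ZMod p) (Tors W p) := AddSubgroup.toZModSubmodule p
    ((e1Subgroup A₀ (qbarCurve W) (qbarCurve_intCoeffs W A₀)).comap
      (Submodule.torsionBy ℤ (qbarCurve W).Point p).subtype.toAddMonoidHom)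
  have hL₀top : L₀ ≠ ⊤ := by
    obtain ⟨T, hT⟩ := exists_torsion_not_inE1 W hΔ hp hp2 A₀ hA₀ N hst hbot htop
    intro htop'
    exact hT (show T ∈ L₀ from htop' ▸ Submodule.mem_top)
  have hmove : ∀ σ ∈ A₀.inertiaSubgroupIn ℚ, ∀ x : Tors W p, σ • x - x ∈ L₀ :=
    fun σ hσ x => hat A₀ hA₀ σ hσ x
  have main : ∀ H : Subgroup GQ, H.Normal → L.fixingSubgroup ≤ H →
      (∀ q : ℕ, q.Prime → q ≠ p → ∀ A : ValuationSubring Qb, A.LiesOverPrime q →
        A.inertiaSubgroupIn ℚ ≤ H) → A₀.inertiaSubgroupIn ℚ ≤ H → H = ⊤ := by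
    intro H hH hLH hne hA₀H
    refine eq_top_of_inertia_le H L hLH fun q hq A hA => ?_
    rcases eq_or_ne q p with rfl | hqp
    · obtain ⟨g, hg⟩ := exists_conj_inertia hq hA₀ hA
      intro σ hσ
      have := hH.conj_mem _ (hA₀H (hg σ hσ)) g
      simpa [mul_assoc] using this
    · exact hne q hq hqp A hA
  by_cases hle : N ≤ L₀
  · right
    have hN := line_le_eq hΔ hbot hL₀top hle
    have hall := main (quotFix N) inferInstance
      (fun σ hσ x => by rw [hLfix σ hσ x, sub_self]; exact N.zero_mem)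
      (fun q hq hqp A hA σ hσ => (mem_both_of_unipotent hΔ hst hbot htop (haway q hq hqp A hA σ hσ)).2)
      (fun σ hσ x => hN ▸ hmove σ hσ x)
    exact fun σ => (hall ▸ Subgroup.mem_top σ : σ ∈ quotFix N)
  · left
    have hinf : N ⊓ L₀ = ⊥ := by
      by_contra h0
      refine hle ?_
      have := line_le_eq hΔ h0 htop inf_le_left
      exact le_of_eq_of_le this.symm inf_le_right
    have hall := main (subFix N) inferInstance (fun σ hσ x _ => hLfix σ hσ x)
      (fun q hq hqp A hA σ hσ => (mem_both_of_unipotent hΔ hst hbot htop (haway q hq hqp A hA σ hσ)).1)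
      (fun σ hσ x hx => sub_eq_zero.mp <| (Submodule.mem_bot (ZMod p)).mp
        (hinf ▸ ⟨N.sub_mem (hst σ x hx) hx, hmove σ hσ x⟩))
    exact fun σ => (hall ▸ Subgroup.mem_top σ : σ ∈ subFix N)

end

end FermatAgent.LocalP
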