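import Fermat.Agent.LocalP.AtP
import Fermat.Agent.LocalP.AtTwo
import Fermat.Agent.Local.Frey

/-!
# The Frey curve has no rational point of order `p`; reducible implies a cofixed line
-/

set_option autoImplicit false

open scoped WeierstrassCurve.Affine

namespace FermatAgent.LocalP

open WeierstrassCurve WeierstrassCurve.Affine WeierstrassCurve.Affine.Point
open FermatAgent.Local (qbarCurve)

noncomputable section

local notation "Qb" => AlgebraicClosure ℚ

variable (P : FreyPackage)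

lemma frey_a₄_ne_zero : P.freyCurveInt.a₄ ≠ 0 := fun h => by
  have := FermatAgent.Local.frey_a₄ P
  rw [h, mul_zero, eq_comm, mul_eq_zero, neg_eq_zero] at this
  rcases this with h1 | h1
  · exact P.ha0 (eq_zero_of_pow_eq_zero h1)
  · exact P.hb0 (eq_zero_of_pow_eq_zero h1)

/-- `v₂(a₄) = p v₂(b) - 4`: positive and prime to `p`. -/
lemma frey_val_a₄ : ∃ m : ℕ, ValIs 2 (P.freyCurveInt.a₄ : ℚ) m ∧ 0 < m ∧ ¬ P.p ∣ m := by
  have ha4 := FermatAgent.Local.frey_a₄ P
  have hp5 := P.hp5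
  have hb : (2 : ℤ) ∣ P.b := (ZMod.intCast_zmod_eq_zero_iff_dvd P.b 2).1 P.hb2
  have ha : ¬ (2 : ℤ) ∣ P.a := fun h => by
    have h1 := dvd_gcd h hb
    rw [P.hgcdab] at h1
    exact absurd h1 (by decide)
  have hk : 1 ≤ padicValInt 2 P.b :=
    one_le_padicValNat_of_dvd (Int.natAbs_ne_zero.mpr P.hb0) (Int.natCast_dvd.mp hb)
  have hA : padicValInt 2 (P.a ^ P.p) = 0 :=
    padicValInt.eq_zero_of_not_dvd fun h => ha (Int.prime_two.dvd_of_dvd_pow h)
  have hB : padicValInt 2 (P.b ^ P.p) = P.p * padicValInt 2 P.b := by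
    rw [padicValInt, Int.natAbs_pow, padicValNat.pow, padicValInt]
  have e : padicValInt 2 P.freyCurveInt.a₄ + 4 = P.p * padicValInt 2 P.b := by
    have h := congrArg (padicValInt 2) ha4
    rw [padicValInt.mul (by norm_num) (frey_a₄_ne_zero P),
      padicValInt.mul (neg_ne_zero.mpr (pow_ne_zero _ P.ha0)) (pow_ne_zero _ P.hb0),
      show padicValInt 2 (16 : ℤ) = 4 by
        rw [padicValInt, show ((16 : ℤ)).natAbs = 2 ^ 4 by norm_num, padicValNat.prime_pow],
      show padicValInt 2 (-(P.a ^ P.p)) = 0 by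
        rw [padicValInt, Int.natAbs_neg, ← padicValInt, hA], hB] at h
    omega
  refine ⟨padicValInt 2 P.freyCurveInt.a₄, ⟨Int.cast_ne_zero.mpr (frey_a₄_ne_zero P),
    padicValRat.of_int⟩, ?_, fun hd => ?_⟩
  · have := Nat.mul_le_mul hp5 hk
    omega
  · obtain ⟨c, hc⟩ := hd
    have h4 : P.p ∣ 4 := ⟨padicValInt 2 P.b - c, by rw [Nat.mul_sub]; omega⟩
    have := Nat.le_of_dvd (by norm_num) h4
    omega

lemma frey_rational_torsion_eq_zero
    {Q : ((P.freyCurveInt.map (Int.castRingHom ℚ))⁄ℚ).Point} (h : P.p • Q = 0) : Q = 0 := by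
  obtain ⟨m, hm, hm0, hpm⟩ := frey_val_a₄ P
  have hcurve : ((P.freyCurveInt.map (Int.castRingHom ℚ))⁄ℚ) =
      atTwoCurve P.freyCurveInt.a₂ P.freyCurveInt.a₄ := by
    ext <;> simp [atTwoCurve, WeierstrassCurve.map, WeierstrassCurve.baseChange,
      FreyPackage.freyCurveInt]
  revert Q
  rw [hcurve]
  intro Q h
  exact atTwo_eq_zero_of_nsmul_eq_zero P.pp P.hp5 hm hm0 hpm h

attribute [local instance] FermatAgent.RT.isGalois_algClosureRat

/-- A `p`-torsion point fixed by Galois is rational, hence zero. -/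
lemma frey_fixed_eq_zero {T : Tors P.freyCurveInt P.p}
    (hfix : ∀ σ : Qb ≃ₐ[ℚ] Qb, σ • T = T) : T = 0 := by
  obtain ⟨R, hR⟩ := T
  have hT : ∀ σ : Qb ≃ₐ[ℚ] Qb, σ • R = R := fun σ => congrArg Subtype.val (hfix σ)
  rw [Submodule.mem_torsionBy_iff, natCast_zsmul] at hR
  refine Subtype.ext (?_ : R = 0)
  rcases R with _ | ⟨x, y, h⟩
  · rfl
  have hc : ∀ σ : Qb ≃ₐ[ℚ] Qb, σ x = x ∧ σ y = y := fun σ => by
    have := hT σ
    rw [algEquiv_smul_def, Point.map_some, Point.some.injEq] at this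
    exact this
  obtain ⟨x₀, rfl⟩ := (InfiniteGalois.mem_range_algebraMap_iff_fixed (k := ℚ) x).mpr fun σ => (hc σ).1
  obtain ⟨y₀, rfl⟩ := (InfiniteGalois.mem_range_algebraMap_iff_fixed (k := ℚ) y).mpr fun σ => (hc σ).2
  have hn : (((P.freyCurveInt.map (Int.castRingHom ℚ))⁄ℚ)).Nonsingular x₀ y₀ :=
    (WeierstrassCurve.Affine.baseChange_nonsingular
      (W := P.freyCurveInt.map (Int.castRingHom ℚ))
      (f := Algebra.ofId ℚ Qb) (algebraMap ℚ Qb).injective x₀ y₀).mp h
  have hmap : Point.map (W' := P.freyCurveInt.map (Int.castRingHom ℚ)) (Algebra.ofId ℚ Qb)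
      (Point.some x₀ y₀ hn) = Point.some _ _ h := Point.map_some _ hn
  have h0 : P.p • Point.some x₀ y₀ hn = 0 := by
    apply Point.map_injective (W' := P.freyCurveInt.map (Int.castRingHom ℚ))
      (f := Algebra.ofId ℚ Qb)
    rw [map_nsmul, hmap, hR, _root_.map_zero]
  exact absurd (frey_rational_torsion_eq_zero P h0) (Point.some_ne_zero _)

theorem frey_hasCofixedLine
    (hred : ¬ GaloisRepIsIrreducible (K := Qb) ℚ (P.freyCurveInt.map (Int.castRingHom ℚ)) P.p) :
    HasGaloisStableCofixedLine (K := Qb) ℚ (P.freyCurveInt.map (Int.castRingHom ℚ)) P.p := by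
  have : Fact P.p.Prime := ⟨P.pp⟩
  have hΔ := FermatAgent.Local.frey_Δ_ne_zero P
  have hnt : Nontrivial (Tors P.freyCurveInt P.p) :=
    Module.nontrivial_of_finrank_eq_succ (finrank_tors hΔ)
  rw [GaloisRepIsIrreducible, not_and] at hred
  have hred' := hred hnt
  push Not at hred'
  obtain ⟨N, hst, hbot, htop⟩ := hred'
  rcases semistable_fixed_or_cofixed P.freyCurveInt hΔ
    (FermatAgent.Local.frey_isSemistableModel P) P.pp (by have := P.hp5; omega) hst hbot htop
    with hfix | hco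
  · obtain ⟨T, hT, hT0⟩ := N.ne_bot_iff.mp hbot
    exact absurd (frey_fixed_eq_zero P fun σ => hfix σ T hT) hT0
  · exact ⟨N, hst, hbot, htop, hco⟩

end

end FermatAgent.LocalP
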